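import Fermat.Agent.Differentials.Duality
import Fermat.Agent.FunctionField.Weil

/-!
# `AlgebraicCurve.genus = genusFF`

The divisor of a nonzero Kähler differential is a canonical divisor in the sense of duality, so its
degree is `2 g - 2` with `g = genusFF`.
-/

noncomputable section

namespace Fermat.Agent.Differentials

open AlgebraicCurve

variable {K F : Type*} [Field K] [Field F] [Algebra K F] [IsAlgClosed K] [CharZero K]
  [IsCurveOver K F] [FunctionField.IsFunctionField K F]

theorem resFunctional_mem_weilSpace_iff {ω : Ω[F⁄K]} (hω : ω ≠ 0) (E : Divisor K F) :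
    resFunctional ω ∈ FunctionField.weilSpace E ↔ ∀ v, E v ≤ v.ordDifferential ω := by
  rw [FunctionField.mem_weilSpace, resFunctional_repartitionsOf_iff hω]
  exact ⟨And.left, fun h => ⟨h, fun α hα => resFunctional_principal ω hα⟩⟩

/-- Serre duality: for `W = div ω` one has `i(D) = l(W - D)`. -/
theorem index_eq_ell {ω : Ω[F⁄K]} (hω : ω ≠ 0) {W : Divisor K F}
    (hW : ∀ v, W v = v.ordDifferential ω) (E : Divisor K F) :
    FunctionField.index E = FunctionField.ell (W - E) :=
  FunctionField.index_eq_ell_of_maximal (resFunctional_ne_zero hω)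
    ((resFunctional_mem_weilSpace_iff hω W).mpr fun v => (hW v).le)
    (fun D hD => Finsupp.le_def.mpr fun v =>
      ((resFunctional_mem_weilSpace_iff hω D).mp hD v).trans (hW v).ge) E

/-- `deg div ω = 2 g - 2`. -/
theorem degree_ordDifferential {ω : Ω[F⁄K]} (hω : ω ≠ 0) {W : Divisor K F}
    (hW : ∀ v, W v = v.ordDifferential ω) :
    Divisor.degree W = 2 * (genusFF K F : ℤ) - 2 :=
  FunctionField.canonical_degree (index_eq_ell hω hW)

/-- The differential genus and the repartition genus agree. -/
theorem genus_eq_genusFF [HasCanonicalDivisor (K := K) (F := F)] :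
    genus K F = genusFF K F := by
  obtain ⟨ω, hω⟩ := exists_ne (0 : Ω[F⁄K])
  exact genus_eq_of_degree IsCurveOver.finrank_kaehler IsCurveOver.deg_eq_one_of_isAlgClosed hω
    (canonicalDivisorOf_apply hω) (degree_ordDifferential hω (canonicalDivisorOf_apply hω))

/-- **Riemann–Hurwitz**: `2 g - 2` in terms of the fibres of a function of degree `n`. -/
theorem genusFF_eq_of_fibers {x : F} (hx : Transcendental K x)
    (n : ℕ) (fib : K → Finset (Place K F)) (poles : Finset (Place K F))
    (hfib : ∀ a v, v ∈ fib a ↔ 0 < v.ord (x - algebraMap K F a))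
    (hpoles : ∀ v, v ∈ poles ↔ v.ord x < 0)
    (hfibsum : ∀ a, ∑ v ∈ fib a, v.ord (x - algebraMap K F a) = n)
    (hpolesum : ∑ v ∈ poles, v.ord x = -(n : ℤ))
    (S : Finset K) (hS : ∀ a ∉ S, ∀ v ∈ fib a, v.ord (x - algebraMap K F a) = 1) :
    2 * (genusFF K F : ℤ) - 2 = -(n : ℤ) - poles.card + ∑ a ∈ S, ((n : ℤ) - (fib a).card) := by
  have hω := D_ne_zero_of_transcendental (K := K) hx
  obtain ⟨W, hW⟩ := (hasCanonicalDivisor (K := K) (F := F)).exists_divisor _ hω
  rw [← degree_ordDifferential hω hW]
  exact degree_eq_of_fibers IsCurveOver.finrank_kaehler IsCurveOver.deg_eq_one_of_isAlgClosed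
    (fun a (h : x = algebraMap K F a) => hx (h ▸ isAlgebraic_algebraMap a)) n fib poles hfib
    hpoles hfibsum hpolesum S hS hW

end Fermat.Agent.Differentials
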