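import Fermat.Agent.Differentials.DiffExpansion

/-!
# Divisor of `dx` and the Riemann–Hurwitz count

Hypotheses are kept minimal: rank one of the differentials and all places of degree one (both are
part of `IsCurveOver` over an algebraically closed field).
-/

noncomputable section

namespace Fermat.Agent.Differentials

open AlgebraicCurve KaehlerDifferential HahnSeries

variable {K F : Type*} [Field K] [Field F] [Algebra K F]

/-- Constants have order zero at every place. -/
theorem ord_algebraMap (v : Place K F) (a : K) : v.ord (algebraMap K F a) = 0 := by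
  rcases eq_or_ne a 0 with rfl | ha
  · simp
  · rw [← v.coe_algebraMap a]
    exact v.ord_coe_unit ((isUnit_iff_ne_zero.mpr ha).map (algebraMap K v.toValuationSubring)).unit

/-- A regular function takes a value in `K`. -/
theorem exists_ord_sub_pos {v : Place K F} (hv : v.deg = 1) {f : F} (hf : 0 ≤ v.ord f)
    (hconst : ∀ a : K, f ≠ algebraMap K F a) :
    ∃ a : K, 0 < v.ord (f - algebraMap K F a) := by
  have hf0 : f ≠ 0 := by simpa using hconst 0
  let c := coordOf v hv
  set f' : v.toValuationSubring := ⟨f, (mem_iff_ord_nonneg v hf0).mpr hf⟩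
  refine ⟨c.res f', ?_⟩
  have h : f - algebraMap K F (c.res f') = (c.t : F) * (c.shift f' : F) := by
    have h1 := congrArg Subtype.val (c.res_add_t_mul_shift f')
    simp only [AddMemClass.coe_add, MulMemClass.coe_mul, Place.coe_algebraMap] at h1
    linear_combination -h1
  have hne : (c.t : F) * (c.shift f' : F) ≠ 0 := h ▸ sub_ne_zero.mpr (hconst _)
  rw [h, v.ord_mul (left_ne_zero_of_mul hne) (right_ne_zero_of_mul hne),
    v.ord_coe_irreducible c.irred]
  have := (mem_iff_ord_nonneg v (right_ne_zero_of_mul hne)).mp (c.shift f').2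
  omega

/-- Two values at a place agree. -/
theorem eq_of_ord_sub_pos (v : Place K F) {f : F} {a b : K}
    (ha : 0 < v.ord (f - algebraMap K F a)) (hb : 0 < v.ord (f - algebraMap K F b)) : a = b := by
  by_contra h
  have hmem : ∀ {a : K}, 0 < v.ord (f - algebraMap K F a) →
      v.adicValuation (f - algebraMap K F a) < 1 := fun {a} ha => by
    have hne : f - algebraMap K F a ≠ 0 := fun h0 => by simp [h0] at ha
    rw [v.adicValuation_eq_exp_neg_ord hne, ← WithZero.exp_zero, WithZero.exp_lt_exp]
    omega
  have h2 := (v.adicValuation.map_sub _ _).trans_lt (max_lt (hmem ha) (hmem hb))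
  rw [sub_sub_sub_cancel_left, ← map_sub,
     v.adicValuation_eq_exp_neg_ord
       ((map_ne_zero (algebraMap K F)).mpr (sub_ne_zero.mpr (Ne.symm h))),
    ord_algebraMap] at h2
  simp at h2

/-- The order of `g • ω` is the sum of the orders of `g` and `ω`. -/
theorem ordDifferential_smul_eq (hrank : Module.finrank F Ω[F⁄K] = 1) {v : Place K F}
    (hv : v.deg = 1) {g : F} (hg : g ≠ 0) {ω : Ω[F⁄K]} (hω : ω ≠ 0) :
    v.ordDifferential (g • ω) = v.ord g + v.ordDifferential ω := by
  let c := coordOf v hv
  rw [c.ordDifferential_eq hrank, c.ordDifferential_eq hrank, c.diffExp_smul,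
    order_mul ((map_ne_zero _).mpr hg)
      ((map_ne_zero_iff _ (c.diffExp_injective hrank)).mpr hω), c.order_expand]

/-- `ord (df) = ord (f - a) - 1` when `ord (f - a) ≠ 0`. -/
theorem ordDifferential_D_sub [CharZero K] (hrank : Module.finrank F Ω[F⁄K] = 1) {v : Place K F}
    (hv : v.deg = 1) {f : F} {a : K} (h : v.ord (f - algebraMap K F a) ≠ 0) :
    v.ordDifferential (D K F f) = v.ord (f - algebraMap K F a) - 1 := by
  rw [← (coordOf v hv).ordDifferential_D_of_ord_ne_zero hrank h, map_sub, Derivation.map_algebraMap,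
    sub_zero]

/-- A function with a zero or pole of `f - a` somewhere has nonzero differential. -/
theorem D_ne_zero_of_ord_ne_zero [CharZero K] {v : Place K F} (hv : v.deg = 1) {f : F} {a : K}
    (h : v.ord (f - algebraMap K F a) ≠ 0) : D K F f ≠ 0 := fun h0 => by
  let c := coordOf v hv
  have h1 := c.diffExp_D (f - algebraMap K F a)
  rw [map_sub, Derivation.map_algebraMap, sub_zero, h0, map_zero] at h1
  exact (order_deriv' (by rwa [c.order_expand])).1 h1.symm

/-- When all places have degree one the degree is the sum of the multiplicities. -/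
theorem degree_eq_sum_of_deg_one (hdeg : ∀ v : Place K F, v.deg = 1) (W : Divisor K F)
    {s : Finset (Place K F)} (hs : W.support ⊆ s) : Divisor.degree W = ∑ v ∈ s, W v := by
  rw [show Divisor.degree W = W.sum fun v n => n * (v.deg : ℤ) from rfl,
    Finsupp.sum_of_support_subset W hs _ (by simp)]
  simp [hdeg]

/-- **Riemann–Hurwitz** for a function `x` of degree `n` (characteristic zero): with `S` containing
all branch values, the divisor of `dx` has degree
`-n - #(poles) + ∑_{a ∈ S} (n - #(fibre over a))`. -/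
theorem degree_eq_of_fibers [CharZero K] (hrank : Module.finrank F Ω[F⁄K] = 1)
    (hdeg : ∀ v : Place K F, v.deg = 1) {x : F} (hx : ∀ a : K, x ≠ algebraMap K F a)
    (n : ℕ) (fib : K → Finset (Place K F)) (poles : Finset (Place K F))
    (hfib : ∀ a v, v ∈ fib a ↔ 0 < v.ord (x - algebraMap K F a))
    (hpoles : ∀ v, v ∈ poles ↔ v.ord x < 0)
    (hfibsum : ∀ a, ∑ v ∈ fib a, v.ord (x - algebraMap K F a) = n)
    (hpolesum : ∑ v ∈ poles, v.ord x = -(n : ℤ))
    (S : Finset K) (hS : ∀ a ∉ S, ∀ v ∈ fib a, v.ord (x - algebraMap K F a) = 1)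
    {W : Divisor K F} (hW : ∀ v, W v = v.ordDifferential (D K F x)) :
    Divisor.degree W = -(n : ℤ) - poles.card + ∑ a ∈ S, ((n : ℤ) - (fib a).card) := by
  classical
  have hfin : ∀ a, ∀ v ∈ fib a, W v = v.ord (x - algebraMap K F a) - 1 := fun a v hv => by
    rw [hW, ordDifferential_D_sub hrank (hdeg v)]
    exact ((hfib a v).mp hv).ne'
  have hpole : ∀ v ∈ poles, W v = v.ord x - 1 := fun v hv => by
    rw [hW]
    exact (coordOf v (hdeg v)).ordDifferential_D_of_ord_ne_zero hrank ((hpoles v).mp hv).ne
  have hdisj : Disjoint poles (S.biUnion fib) := by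
    refine Finset.disjoint_left.mpr fun v hv hv' => ?_
    obtain ⟨a, -, ha⟩ := Finset.mem_biUnion.mp hv'
    have h1 := (hpoles v).mp hv
    have h2 := (hfib a v).mp ha
    have hne : x - algebraMap K F a ≠ 0 := sub_ne_zero.mpr (hx a)
    have hm := (mem_iff_ord_nonneg v hne).mpr h2.le
    have := add_mem hm (v.algebraMap_mem' a)
    rw [sub_add_cancel, mem_iff_ord_nonneg v (by simpa using hx 0)] at this
    omega
  have hsupp : W.support ⊆ poles ∪ S.biUnion fib := fun v hv => by
    rw [Finsupp.mem_support_iff] at hv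
    by_contra hn
    rw [Finset.mem_union, Finset.mem_biUnion, hpoles, not_or, not_lt] at hn
    obtain ⟨a, ha⟩ := exists_ord_sub_pos (hdeg v) hn.1 hx
    have ha' : a ∉ S := fun h => hn.2 ⟨a, h, (hfib a v).mpr ha⟩
    refine hv ?_
    rw [hfin a v ((hfib a v).mpr ha), hS a ha' v ((hfib a v).mpr ha), sub_self]
  rw [degree_eq_sum_of_deg_one hdeg W hsupp, Finset.sum_union hdisj,
    Finset.sum_congr rfl hpole, Finset.sum_sub_distrib, hpolesum, Finset.sum_biUnion]
  · rw [Finset.sum_congr rfl fun a _ => show ∑ v ∈ fib a, W v = (n : ℤ) - (fib a).card by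
      rw [Finset.sum_congr rfl (hfin a), Finset.sum_sub_distrib, hfibsum]; simp]
    simp
  · exact fun a _ b _ hab => Finset.disjoint_left.mpr fun v hva hvb =>
      hab (eq_of_ord_sub_pos v ((hfib a v).mp hva) ((hfib b v).mp hvb))

/-- The Prelude's genus from the degree of the divisor of one nonzero differential. -/
theorem genus_eq_of_degree (hrank : Module.finrank F Ω[F⁄K] = 1)
    (hdeg : ∀ v : Place K F, v.deg = 1) [HasPrincipalDivisors K F]
    [HasCanonicalDivisor (K := K) (F := F)] {ω : Ω[F⁄K]} (hω : ω ≠ 0) {W : Divisor K F}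
    (hW : ∀ v, W v = v.ordDifferential ω) {g : ℕ} (hg : Divisor.degree W = 2 * (g : ℤ) - 2) :
    genus K F = g := by
  have hex : ∃ ω : Ω[F⁄K], ω ≠ 0 := ⟨ω, hω⟩
  rw [genus, dif_pos hex]
  obtain ⟨c, hc⟩ := exists_eq_smul_of_finrank_kaehler hrank hω hex.choose
  have hc0 : c ≠ 0 := by rintro rfl; exact hex.choose_spec (by rw [hc, zero_smul])
  obtain ⟨P, hP, hP0⟩ := HasPrincipalDivisors.exists_divisor (K := K) c hc0
  have he : canonicalDivisorOf hex.choose_spec = P + W := by
    ext v
    rw [canonicalDivisorOf_apply, Finsupp.add_apply, hP, hW]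
    conv_lhs => rw [hc]
    exact ordDifferential_smul_eq hrank (hdeg v) hc0 hω
  rw [he, map_add, hP0, hg]
  omega

end Fermat.Agent.Differentials
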