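import Fermat.Agent.FFPlaces.Basic

/-!
# Weak approximation at finitely many places
-/

noncomputable section

namespace Fermat.Agent.Differentials

open AlgebraicCurve FFPlaces

variable {K F : Type*} [Field K] [Field F] [Algebra K F]

/-- Two distinct places are separated by an element regular at one and with a pole at the other. -/
theorem exists_nonneg_neg {w u : Place K F} (h : w ≠ u) :
    ∃ a : F, 0 ≤ w.ord a ∧ u.ord a < 0 := by
  by_contra hh
  push Not at hh
  exact h (ord_eq_of_le hh)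

/-- Two distinct places are separated by an element with a pole at one and a zero at the other. -/
theorem exists_ord_neg_pos_pair {w u : Place K F} (h : w ≠ u) :
    ∃ y : F, y ≠ 0 ∧ w.ord y < 0 ∧ 0 < u.ord y := by
  obtain ⟨a, ha1, ha2⟩ := exists_nonneg_neg h
  obtain ⟨b, hb1, hb2⟩ := exists_nonneg_neg h.symm
  have ha : a ≠ 0 := by rintro rfl; simp at ha2
  have hb : b ≠ 0 := by rintro rfl; simp at hb2
  refine ⟨b / a, div_ne_zero hb ha, ?_, ?_⟩ <;> rw [ord_div _ hb ha] <;> omega

theorem ord_one_add_of_pos (v : Place K F) {f : F} (h : 0 < v.ord f) : v.ord (1 + f) = 0 := by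
  rw [ord_add_eq_of_lt v one_ne_zero (Or.inr (by rw [v.ord_one]; exact h)), v.ord_one]

theorem ord_one_add_of_neg (v : Place K F) {f : F} (h : v.ord f < 0) : v.ord (1 + f) = v.ord f := by
  rw [add_comm]
  exact ord_add_eq_of_lt v (by rintro rfl; simp at h) (Or.inr (by rw [v.ord_one]; exact h))

/-- A function with a pole at `w` vanishing at each place of `S`. -/
theorem exists_ord_neg_pos (S : Finset (Place K F)) (w : Place K F) (hw : w ∉ S) :
    ∃ z : F, z ≠ 0 ∧ w.ord z < 0 ∧ ∀ u ∈ S, 0 < u.ord z := by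
  classical
  induction S using Finset.induction with
  | empty =>
    obtain ⟨π, hπ0, hπ⟩ := exists_uniformizer w
    exact ⟨π⁻¹, inv_ne_zero hπ0, by rw [w.ord_inv, hπ]; omega, by simp⟩
  | @insert u S hu ih =>
    rw [Finset.mem_insert, not_or] at hw
    obtain ⟨z, hz0, hzw, hzS⟩ := ih hw.2
    obtain ⟨y, hy0, hyw, hyu⟩ := exists_ord_neg_pos_pair hw.1
    by_cases hzu : 0 < u.ord z
    · exact ⟨z, hz0, hzw, Finset.forall_mem_insert _ _ _ |>.mpr ⟨hzu, hzS⟩⟩
    set M := (S.sup fun s => (-s.ord y).toNat) + 1 with hM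
    have hMS : ∀ s ∈ S, -s.ord y < (M : ℤ) := fun s hs => by
      have := Finset.le_sup (f := fun s => (-s.ord y).toNat) hs
      omega
    have hlarge : ∀ s ∈ S, (M : ℤ) ≤ s.ord (z ^ M) := fun s hs => by
      rw [ord_pow]; have := hzS s hs; nlinarith
    rcases eq_or_lt_of_le (not_lt.mp hzu) with h0 | hneg
    · refine ⟨z ^ M * y, mul_ne_zero (pow_ne_zero _ hz0) hy0, ?_, ?_⟩
      · rw [w.ord_mul (pow_ne_zero _ hz0) hy0, ord_pow]
        have : (M : ℤ) * w.ord z ≤ 0 := by nlinarith
        omega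
      · refine Finset.forall_mem_insert _ _ _ |>.mpr ⟨?_, fun s hs => ?_⟩
        · rw [u.ord_mul (pow_ne_zero _ hz0) hy0, ord_pow, h0, mul_zero, zero_add]; exact hyu
        · rw [s.ord_mul (pow_ne_zero _ hz0) hy0]
          have := hMS s hs; have := hlarge s hs; omega
    · have hM1 : (1 : ℤ) ≤ (M : ℤ) := by omega
      have hzMw : w.ord (z ^ M) < 0 := by rw [ord_pow]; nlinarith
      have hzMu : u.ord (z ^ M) < 0 := by rw [ord_pow]; nlinarith
      have hne : 1 + z ^ M ≠ 0 := fun h => by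
        have := ord_one_add_of_neg w hzMw; rw [h, w.ord_zero] at this; omega
      have hq : z ^ M / (1 + z ^ M) ≠ 0 := div_ne_zero (pow_ne_zero _ hz0) hne
      refine ⟨z ^ M / (1 + z ^ M) * y, mul_ne_zero hq hy0, ?_, ?_⟩
      · rw [w.ord_mul hq hy0, ord_div w (pow_ne_zero _ hz0) hne, ord_one_add_of_neg w hzMw]
        omega
      · refine Finset.forall_mem_insert _ _ _ |>.mpr ⟨?_, fun s hs => ?_⟩
        · rw [u.ord_mul hq hy0, ord_div u (pow_ne_zero _ hz0) hne, ord_one_add_of_neg u hzMu]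
          omega
        · have := hMS s hs; have := hlarge s hs
          rw [s.ord_mul hq hy0, ord_div s (pow_ne_zero _ hz0) hne,
            ord_one_add_of_pos s (by omega)]
          omega

/-- Prescribed order at `w`, high order on `S`. -/
theorem exists_ord_eq_and_le (S : Finset (Place K F)) (w : Place K F) (hw : w ∉ S) (i : ℤ)
    (N : ℤ) : ∃ b : F, b ≠ 0 ∧ w.ord b = i ∧ ∀ u ∈ S, N ≤ u.ord b := by
  classical
  obtain ⟨z, hz0, hzw, hzS⟩ := exists_ord_neg_pos S w hw
  obtain ⟨π, hπ0, hπ⟩ := exists_uniformizer w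
  set y := π ^ i with hy
  set M := (S.sup fun s => (N - s.ord y).toNat) + 1 with hM
  have hzMw : w.ord (z ^ M) < 0 := by rw [ord_pow]; nlinarith
  have hne : 1 + z ^ M ≠ 0 := fun h => by
    have := ord_one_add_of_neg w hzMw; rw [h, w.ord_zero] at this; omega
  have hq : z ^ M / (1 + z ^ M) ≠ 0 := div_ne_zero (pow_ne_zero _ hz0) hne
  have hy0 : y ≠ 0 := zpow_ne_zero _ hπ0
  refine ⟨z ^ M / (1 + z ^ M) * y, mul_ne_zero hq hy0, ?_, fun s hs => ?_⟩
  · rw [w.ord_mul hq hy0, ord_div w (pow_ne_zero _ hz0) hne, ord_one_add_of_neg w hzMw, hy,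
      w.ord_zpow, hπ]
    ring
  · have h1 := Finset.le_sup (f := fun s => (N - s.ord y).toNat) hs
    have h2 : (M : ℤ) ≤ s.ord (z ^ M) := by rw [ord_pow]; have := hzS s hs; nlinarith
    rw [s.ord_mul hq hy0, ord_div s (pow_ne_zero _ hz0) hne, ord_one_add_of_pos s (by omega)]
    omega

end Fermat.Agent.Differentials
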