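import Mathlib.RingTheory.LaurentSeries
import Mathlib.RingTheory.Derivation.Basic

/-!
# The derivative of Laurent series as a derivation
-/

noncomputable section

namespace Fermat.Agent.Differentials

open HahnSeries

variable {K : Type*} [Field K]

/-- Formal derivative. -/
def deriv' (f : LaurentSeries K) : LaurentSeries K := LaurentSeries.derivative K f

/-- The coefficients of the derivative. -/
theorem deriv'_coeff (f : LaurentSeries K) (n : ℤ) :
    (deriv' f).coeff n = ((n + 1 : ℤ) : K) * f.coeff (n + 1) := by
  simp [deriv', zsmul_eq_mul]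

/-- The derivative is additive. -/
theorem deriv'_add (f g : LaurentSeries K) : deriv' (f + g) = deriv' f + deriv' g :=
  map_add _ _ _

/-- The derivative commutes with scalars. -/
theorem deriv'_smul (a : K) (f : LaurentSeries K) : deriv' (a • f) = a • deriv' f :=
  map_smul _ _ _

/-- The derivative of a monomial. -/
theorem deriv'_single (n : ℤ) (a : K) :
    deriv' (single n a) = single (n - 1) ((n : K) * a) := by
  simp [deriv', zsmul_eq_mul]

/-- Euler operator. -/
def euler (f : LaurentSeries K) : LaurentSeries K := single 1 1 * deriv' f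

theorem euler_coeff (f : LaurentSeries K) (n : ℤ) :
    (euler f).coeff n = (n : K) * f.coeff n := by
  rw [euler, coeff_single_mul, deriv'_coeff, one_mul, sub_add_cancel]

theorem support_euler_subset (f : LaurentSeries K) : (euler f).support ⊆ f.support := fun n hn => by
  rw [mem_support, euler_coeff] at hn
  exact mem_support _ _ |>.mpr (right_ne_zero_of_mul hn)

/-- The Euler operator is a derivation. -/
theorem euler_mul (f g : LaurentSeries K) : euler (f * g) = euler f * g + f * euler g := by
  ext n
  rw [coeff_add, euler_coeff, coeff_mul,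
    coeff_mul_left' f.isPWO_support (support_euler_subset f),
    coeff_mul_right' g.isPWO_support (support_euler_subset g),
    Finset.mul_sum, ← Finset.sum_add_distrib]
  refine Finset.sum_congr rfl fun ij hij => ?_
  rw [euler_coeff, euler_coeff, ← (Finset.mem_antidiagonal.mp hij).2.2]
  push_cast
  ring

/-- The Leibniz rule. -/
theorem deriv'_mul (f g : LaurentSeries K) : deriv' (f * g) = f * deriv' g + g * deriv' f := by
  have h := euler_mul f g
  have h0 : (single (1 : ℤ) (1 : K)) ≠ 0 := single_ne_zero one_ne_zero
  refine mul_left_cancel₀ h0 ?_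
  simp only [euler] at h
  linear_combination h

/-- The derivative of a power series, coefficientwise. -/
theorem deriv'_ofPowerSeries_coeff (φ : PowerSeries K) (n : ℕ) :
    (deriv' (ofPowerSeries ℤ K φ)).coeff n = (n + 1 : K) * PowerSeries.coeff (n + 1) φ := by
  rw [deriv'_coeff, show ((n : ℤ) + 1) = ((n + 1 : ℕ) : ℤ) by push_cast; rfl,
    ofPowerSeries_apply_coeff]
  push_cast; ring

/-- A derivative has no residue. -/
theorem deriv'_coeff_neg_one (f : LaurentSeries K) : (deriv' f).coeff (-1) = 0 := by
  rw [deriv'_coeff]; simp

/-- Differentiation lowers a nonzero order by one in characteristic zero. -/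
theorem order_deriv' [CharZero K] {f : LaurentSeries K} (hf : f.order ≠ 0) :
    deriv' f ≠ 0 ∧ (deriv' f).order = f.order - 1 := by
  have hf0 : f ≠ 0 := by rintro rfl; simp at hf
  have hc : (deriv' f).coeff (f.order - 1) ≠ 0 := by
    rw [deriv'_coeff, sub_add_cancel]
    exact mul_ne_zero (Int.cast_ne_zero.mpr hf) (coeff_order_eq_zero.not.mpr hf0)
  have hne : deriv' f ≠ 0 := fun h => hc (by rw [h]; rfl)
  refine ⟨hne, le_antisymm (order_le_of_coeff_ne_zero hc) ?_⟩
  by_contra h
  refine coeff_order_eq_zero.not.mpr hne ?_
  rw [deriv'_coeff, coeff_eq_zero_of_lt_order (show (deriv' f).order + 1 < f.order by omega),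
    mul_zero]

end Fermat.Agent.Differentials
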