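import Fermat.Agent.Differentials.Expansion
import Fermat.Agent.Differentials.LaurentDeriv
import Mathlib.RingTheory.Kaehler.Basic
import Fermat.Prelude.Def_AlgebraicCurve_CanonicalDivisor

/-!
# Expansion and residue of Kähler differentials at a rational place
-/

noncomputable section


namespace Fermat.Agent.Differentials

open AlgebraicCurve KaehlerDifferential HahnSeries

variable {K F : Type*} [Field K] [Field F] [Algebra K F]

namespace Coord

variable {v : Place K F} (c : Coord v)

theorem expand_smul (a : K) (f : F) : c.expand (a • f) = a • c.expand f := by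
  rw [Algebra.smul_def, map_mul, c.expand_algebraMap, C_mul_eq_smul]

theorem expand_scalarTower :
    letI : Algebra F (LaurentSeries K) := c.expand.toRingHom.toAlgebra
    @IsScalarTower K F (LaurentSeries K) _ Algebra.toSMul HahnSeries.instSMul := by
  let : Algebra F (LaurentSeries K) := c.expand.toRingHom.toAlgebra
  refine ⟨fun a f l => ?_⟩
  show c.expand (a • f) * l = a • (c.expand f * l)
  rw [c.expand_smul, ← C_mul_eq_smul, ← C_mul_eq_smul, mul_assoc]

/-- The series `g` such that `ω = g dt` in `K((t))`. -/
def diffExp : Ω[F⁄K] →ₗ[K] LaurentSeries K :=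
  letI : Algebra F (LaurentSeries K) := c.expand.toRingHom.toAlgebra
  letI : Module K (LaurentSeries K) := HahnSeries.instModule
  have : IsScalarTower K F (LaurentSeries K) := c.expand_scalarTower
  (Derivation.liftKaehlerDifferential
    (Derivation.mk' (R := K) (A := F) (M := LaurentSeries K)
      { toFun := fun f => deriv' (c.expand f)
        map_add' := fun a b => by rw [map_add, deriv'_add]
        map_smul' := fun a b => by
          show deriv' (c.expand (a • b)) = a • deriv' (c.expand b)
          rw [c.expand_smul, deriv'_smul] }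
      (fun a b => by
        show deriv' (c.expand (a * b)) =
          c.expand a * deriv' (c.expand b) + c.expand b * deriv' (c.expand a)
        rw [map_mul, deriv'_mul]))).restrictScalars K

/-- The expansion of `df` is the derivative of the expansion of `f`. -/
theorem diffExp_D (f : F) : c.diffExp (D K F f) = deriv' (c.expand f) := by
  let a : Algebra F (LaurentSeries K) := c.expand.toRingHom.toAlgebra
  let := a
  let : Module K (LaurentSeries K) := HahnSeries.instModule
  have : IsScalarTower K F (LaurentSeries K) := c.expand_scalarTower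
  exact Derivation.liftKaehlerDifferential_comp_D _ f

/-- The expansion of differentials is semilinear over the expansion of functions. -/
theorem diffExp_smul (g : F) (ω : Ω[F⁄K]) : c.diffExp (g • ω) = c.expand g * c.diffExp ω := by
  let a : Algebra F (LaurentSeries K) := c.expand.toRingHom.toAlgebra
  let := a
  let : Module K (LaurentSeries K) := HahnSeries.instModule
  have : IsScalarTower K F (LaurentSeries K) := c.expand_scalarTower
  simp only [diffExp, LinearMap.restrictScalars_apply]
  exact map_smul (Derivation.liftKaehlerDifferential _) g ω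

theorem diffExp_dt : c.diffExp (D K F (c.t : F)) = 1 := by
  rw [c.diffExp_D, c.expand_t, deriv'_single]; simp

/-- The differential of a uniformizer is nonzero. -/
theorem dt_ne_zero : D K F (c.t : F) ≠ 0 := fun h => by simpa [h] using c.diffExp_dt

/-- The expansion of `g dt` is the expansion of `g`. -/
theorem diffExp_smul_dt (g : F) : c.diffExp (g • D K F (c.t : F)) = c.expand g := by
  rw [diffExp_smul, diffExp_dt, mul_one]

/-- The residue with respect to the coordinate. -/
def residue : Ω[F⁄K] →ₗ[K] K where
  toFun ω := (c.diffExp ω).coeff (-1)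
  map_add' a b := by simp
  map_smul' a b := by simp

/-- The residue is the coefficient of `t ^ (-1)` in the expansion. -/
theorem residue_apply (ω : Ω[F⁄K]) : c.residue ω = (c.diffExp ω).coeff (-1) := rfl

/-- Exact differentials have residue zero. -/
theorem residue_D (f : F) : c.residue (D K F f) = 0 := by
  rw [residue_apply, diffExp_D, deriv'_coeff_neg_one]

end Coord

/-- In a module of rank one, a nonzero differential spans. -/
theorem exists_eq_smul_of_finrank_kaehler (hrank : Module.finrank F Ω[F⁄K] = 1)
    {ω₀ : Ω[F⁄K]} (h0 : ω₀ ≠ 0) (ω : Ω[F⁄K]) : ∃ g : F, ω = g • ω₀ := by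
  obtain ⟨g, hg⟩ := exists_smul_eq_of_finrank_eq_one hrank h0 ω
  exact ⟨g, hg.symm⟩

/-- The differential of a uniformiser generates. -/
theorem dCoordGenerates (hrank : Module.finrank F Ω[F⁄K] = 1) {v : Place K F} (hv : v.deg = 1) :
    v.DCoordGenerates := by
  refine ⟨eq_top_iff.mpr fun ω _ => Submodule.mem_span_singleton.mpr ?_⟩
  obtain ⟨g, hg⟩ := exists_eq_smul_of_finrank_kaehler hrank (coordOf v hv).dt_ne_zero ω
  exact ⟨g, hg.symm⟩

/-- The distinguished differential at a place of degree one is that of the chosen uniformiser. -/
theorem dCoord_eq (v : Place K F) (hv : v.deg = 1) :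
    v.dCoord = D K F ((coordOf v hv).t : F) := rfl

namespace Coord

variable {v : Place K F} (c : Coord v)

/-- A differential is determined by its expansion. -/
theorem diffExp_injective (hrank : Module.finrank F Ω[F⁄K] = 1) :
    Function.Injective c.diffExp := by
  refine (injective_iff_map_eq_zero _).mpr fun ω hω => ?_
  obtain ⟨g, rfl⟩ := exists_eq_smul_of_finrank_kaehler hrank c.dt_ne_zero ω
  rw [c.diffExp_smul_dt, map_eq_zero] at hω
  rw [hω, zero_smul]

/-- A place with a coordinate has degree one. -/
theorem deg_eq_one (c : Coord v) : v.deg = 1 := by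
  show Module.finrank K v.ResidueField = 1
  rw [← Module.finrank_self K]
  exact
    ((AlgEquiv.ofBijective (Algebra.ofId K v.ResidueField) c.resBij).toLinearEquiv.finrank_eq).symm

/-- The Prelude's order of a differential is the order of its expansion in any coordinate. -/
theorem ordDifferential_eq (hrank : Module.finrank F Ω[F⁄K] = 1) (ω : Ω[F⁄K]) :
    v.ordDifferential ω = (c.diffExp ω).order := by
  set c₀ := coordOf v c.deg_eq_one
  obtain ⟨g, rfl⟩ := exists_eq_smul_of_finrank_kaehler hrank c₀.dt_ne_zero ω
  have := dCoordGenerates hrank c.deg_eq_one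
  have : Nontrivial Ω[F⁄K] := ⟨_, _, c₀.dt_ne_zero⟩
  have hu : v.differentialCoeff (g • D K F (c₀.t : F)) = g := by
    rw [← dCoord_eq v c.deg_eq_one]; exact v.differentialCoeff_unique rfl
  rw [Place.ordDifferential, hu]
  rcases eq_or_ne g 0 with rfl | hg
  · simp
  have ht : v.ord (c₀.t : F) = 1 := v.ord_coe_irreducible c₀.irred
  have hd : (deriv' (c.expand (c₀.t : F))).coeff 0 ≠ 0 := by
    have h1 : (c.expand (c₀.t : F)).order = 1 := by rw [c.order_expand, ht]
    have hne : c.expand (c₀.t : F) ≠ 0 := fun h => by simp [h] at h1
    rw [deriv'_coeff]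
    simpa [h1] using coeff_order_eq_zero.not.mpr hne
  have hord : (deriv' (c.expand (c₀.t : F))).order = 0 := by
    refine le_antisymm (order_le_of_coeff_ne_zero hd) ?_
    by_contra h
    have hne' : deriv' (c.expand (c₀.t : F)) ≠ 0 := fun h0 => hd (by rw [h0]; rfl)
    refine coeff_order_eq_zero.not.mpr hne' ?_
    rw [deriv'_coeff]
    by_cases h2 : (deriv' (c.expand (c₀.t : F))).order + 1 = 0
    · simp [h2]
    · have h3 : (deriv' (c.expand (c₀.t : F))).order + 1 < (c.expand (c₀.t : F)).order := by
        rw [c.order_expand, ht]; omega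
      rw [coeff_eq_zero_of_lt_order h3, mul_zero]
  rw [c.diffExp_smul, c.diffExp_D, order_mul ((map_ne_zero _).mpr hg)
    (fun h0 => hd (by rw [h0]; rfl)), hord, add_zero, c.order_expand]

/-- In characteristic zero `ord (df) = ord f - 1` when `ord f ≠ 0`. -/
theorem ordDifferential_D_of_ord_ne_zero [CharZero K] (hrank : Module.finrank F Ω[F⁄K] = 1)
    (c : Coord v) {f : F} (hf : v.ord f ≠ 0) :
    v.ordDifferential (D K F f) = v.ord f - 1 := by
  rw [c.ordDifferential_eq hrank, c.diffExp_D,
    (order_deriv' (by rwa [c.order_expand])).2, c.order_expand]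

end Coord

end Fermat.Agent.Differentials
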