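import Fermat.Agent.Differentials.ResidueGlobal
import Fermat.Agent.FunctionField.RiemannRoch
import Fermat.Agent.FunctionField.Curve
import Fermat.Prelude.Def_AlgebraicCurve_CanonicalDivisor

/-!
# The residue functional of a differential and the divisor of a differential

`α ↦ ∑ᵥ res_v(αᵥ ω)` kills the principal repartitions (residue theorem) and kills `A(D)` exactly
for `D ≤ div ω`.  Combined with the vanishing of `H¹` in large degree this gives finiteness of the
support of `div ω`.
-/

noncomputable section

namespace Fermat.Agent.Differentials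

open AlgebraicCurve KaehlerDifferential HahnSeries FFPlaces WithZero

variable {K F : Type*} [Field K] [Field F] [Algebra K F] [IsAlgClosed K] [CharZero K]
  [IsCurveOver K F] [FunctionField.IsFunctionField K F]

/-- The residue theorem for a function field in one variable. -/
theorem residueSum_eq_zero' (ω : Ω[F⁄K]) : residueSum ω = (0 : K) := by
  obtain ⟨x, hx⟩ := FunctionField.IsFunctionField.exists_transcendental (K := K) (F := F)
  exact residueSum_eq_zero
    (fun y hy => FunctionField.IsFunctionField.finiteDimensional_adjoin y hy) hx ω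

/-- The differential of a transcendental element is nonzero. -/
theorem D_ne_zero_of_transcendental {x : F} (hx : Transcendental K x) : D K F x ≠ 0 := by
  obtain ⟨v, hv⟩ := exists_place
    (fun y hy => FunctionField.IsFunctionField.finiteDimensional_adjoin y hy) hx
  exact D_ne_zero_of_ord_ne_zero (IsCurveOver.deg_eq_one_of_isAlgClosed v) (a := 0)
    (by rw [map_zero, sub_zero]; omega)

/-- Every differential is a multiple of the differential of a transcendental element. -/
theorem exists_eq_smul_D (ω : Ω[F⁄K]) : ∃ g x : F, Transcendental K x ∧ ω = g • D K F x := by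
  obtain ⟨x, hx⟩ := FunctionField.IsFunctionField.exists_transcendental (K := K) (F := F)
  obtain ⟨g, hg⟩ := exists_eq_smul_of_finrank_kaehler IsCurveOver.finrank_kaehler
    (D_ne_zero_of_transcendental hx) ω
  exact ⟨g, x, hx, hg⟩

/-- A repartition times a differential has only finitely many nonzero residues. -/
theorem support_resAt_smul_finite (ω : Ω[F⁄K]) (α : ↥(repartitions K F)) :
    (Function.support fun v : Place K F => resAt v ((α : Place K F → F) v • ω)).Finite := by
  obtain ⟨g, x, -, rfl⟩ := exists_eq_smul_D ω
  refine (((FunctionField.mem_repartitions_iff.mp α.2).union (finite_notMem (K := K) g)).union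
    (finite_notMem (K := K) x)).subset fun v hv => ?_
  by_contra hh
  simp only [Set.mem_union, Set.mem_ofPred_eq, not_or, not_not] at hh
  refine hv ?_
  show resAt v ((α : Place K F → F) v • g • D K F x) = 0
  rw [smul_smul]
  refine resAt_eq_zero_of_regular v (mul_mem ?_ hh.1.2) hh.2
  rw [mem_iff]
  exact (v.adicValuation_le_one_iff.mp hh.1.1).elim (fun h => by simp [h]) id

/-- The residue functional of `ω` on repartitions. -/
def resFunctional (ω : Ω[F⁄K]) : ↥(repartitions K F) →ₗ[K] K where
  toFun α := ∑ᶠ v : Place K F, resAt v ((α : Place K F → F) v • ω)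
  map_add' α β := by
    rw [← finsum_add_distrib (support_resAt_smul_finite ω α) (support_resAt_smul_finite ω β)]
    refine finsum_congr fun v => ?_
    rw [← map_add, ← add_smul]; rfl
  map_smul' a α := by
    rw [RingHom.id_apply, smul_eq_mul, mul_finsum' _ a (support_resAt_smul_finite ω α)]
    refine finsum_congr fun v => ?_
    rw [← smul_eq_mul, ← map_smul, ← smul_assoc]; rfl

theorem resFunctional_apply (ω : Ω[F⁄K]) (α : ↥(repartitions K F)) :
    resFunctional ω α = ∑ᶠ v : Place K F, resAt v ((α : Place K F → F) v • ω) := rfl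

/-- The residue functional kills principal repartitions. -/
theorem resFunctional_principal (ω : Ω[F⁄K]) {α : ↥(repartitions K F)}
    (hα : α ∈ principalRepartitions K F) : resFunctional ω α = 0 := by
  obtain ⟨f, hf⟩ := mem_principalRepartitions_iff.mp hα
  rw [resFunctional_apply, hf]
  exact residueSum_eq_zero' (f • ω)

omit [CharZero K] [FunctionField.IsFunctionField K F] in
/-- `f • ω` has no residue at a place where it is regular. -/
theorem resAt_smul_eq_zero (v : Place K F) {ω : Ω[F⁄K]} (hω : ω ≠ 0) {f : F}
    (h : f = 0 ∨ 0 ≤ v.ord f + v.ordDifferential ω) : resAt v (f • ω) = 0 := by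
  rcases eq_or_ne f 0 with rfl | hf
  · simp
  set c := coordOf v (IsCurveOver.deg_eq_one_of_isAlgClosed v)
  show (c.diffExp (f • ω)).coeff (-1) = 0
  refine coeff_eq_zero_of_lt_order ?_
  rw [← c.ordDifferential_eq IsCurveOver.finrank_kaehler,
    ordDifferential_smul_eq IsCurveOver.finrank_kaehler
      (IsCurveOver.deg_eq_one_of_isAlgClosed v) hf hω]
  have := h.resolve_left hf
  omega

omit [CharZero K] [FunctionField.IsFunctionField K F] in
/-- Some multiple of `ω` with a simple pole at `v` has a nonzero residue there. -/
theorem exists_resAt_smul_ne_zero (v : Place K F) {ω : Ω[F⁄K]} (hω : ω ≠ 0) :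
    ∃ f : F, v.ord f = -1 - v.ordDifferential ω ∧ resAt v (f • ω) ≠ 0 := by
  obtain ⟨π, hπ0, hπ⟩ := exists_uniformizer v
  refine ⟨π ^ (-1 - v.ordDifferential ω), by rw [v.ord_zpow, hπ, mul_one], ?_⟩
  set c := coordOf v (IsCurveOver.deg_eq_one_of_isAlgClosed v)
  set ξ := π ^ (-1 - v.ordDifferential ω) • ω with hξdef
  have hξ : ξ ≠ 0 := smul_ne_zero (zpow_ne_zero _ hπ0) hω
  have hord : (c.diffExp ξ).order = -1 := by
    rw [← c.ordDifferential_eq IsCurveOver.finrank_kaehler, hξdef,
      ordDifferential_smul_eq IsCurveOver.finrank_kaehler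
        (IsCurveOver.deg_eq_one_of_isAlgClosed v) (zpow_ne_zero _ hπ0) hω, v.ord_zpow, hπ]
    ring
  show (c.diffExp ξ).coeff (-1) ≠ 0
  rw [← hord]
  exact coeff_order_eq_zero.not.mpr
    ((map_ne_zero_iff _ (c.diffExp_injective IsCurveOver.finrank_kaehler)).mpr hξ)

/-- The functional of `ω` kills `A(D)` iff `D ≤ div ω` pointwise. -/
theorem resFunctional_repartitionsOf_iff {ω : Ω[F⁄K]} (hω : ω ≠ 0) (E : Divisor K F) :
    (∀ α ∈ repartitionsOf E, resFunctional ω α = 0) ↔ ∀ v, E v ≤ v.ordDifferential ω := by
  classical
  constructor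
  · intro h v
    by_contra hv
    obtain ⟨f, hf, hres⟩ := exists_resAt_smul_ne_zero v hω
    have hmem : ∀ u : Place K F,
        u.adicValuation (if u = v then f else 0) ≤ exp (E u) := fun u => by
      split_ifs with hu
      · subst hu
        rw [u.adicValuation_le_exp_iff]
        exact Or.inr (by omega)
      · simp
    have h0 := h ⟨_, mem_repartitions_of_forall_le_exp E _ hmem⟩ hmem
    rw [resFunctional_apply, finsum_eq_single _ v fun u hu => by simp [hu]] at h0
    exact hres (by simpa using h0)
  · intro h α hα
    rw [resFunctional_apply]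
    refine finsum_eq_zero_of_forall_eq_zero fun v => resAt_smul_eq_zero v hω ?_
    rcases mem_repartitionsOf_iff.mp hα v with h0 | h0
    · exact Or.inl h0
    · exact Or.inr (by have := h v; omega)

/-- The residue functional of a nonzero differential is nonzero. -/
theorem resFunctional_ne_zero {ω : Ω[F⁄K]} (hω : ω ≠ 0) : resFunctional ω ≠ 0 := by
  classical
  intro h
  obtain ⟨v⟩ := FunctionField.nonempty_place K F
  have := (resFunctional_repartitionsOf_iff hω
    (Finsupp.single v (v.ordDifferential ω + 1))).mp (fun α _ => by rw [h]; rfl) v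
  simp at this

/-- If `D ≤ div ω` pointwise then `H¹(D) ≠ 0`. -/
theorem index_ne_zero {ω : Ω[F⁄K]} (hω : ω ≠ 0) {E : Divisor K F}
    (hE : ∀ v, E v ≤ v.ordDifferential ω) : FunctionField.index E ≠ 0 := by
  intro h0
  refine resFunctional_ne_zero hω ?_
  have hsub : Subsingleton (H1 E) := Module.finrank_zero_iff.mp h0
  ext α
  obtain ⟨β, hβ, γ, hγ, rfl⟩ := Submodule.mem_sup.mp
    ((Submodule.Quotient.mk_eq_zero _).mp (Subsingleton.elim (Submodule.Quotient.mk α : H1 E) 0))
  rw [map_add, (resFunctional_repartitionsOf_iff hω E).mpr hE β hβ, resFunctional_principal ω hγ]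
  simp

/-- The support of `div ω` is finite. -/
theorem finite_ordDifferential_ne_zero (ω : Ω[F⁄K]) :
    {v : Place K F | v.ordDifferential ω ≠ 0}.Finite := by
  classical
  obtain ⟨g, x, hx, rfl⟩ := exists_eq_smul_D ω
  rcases eq_or_ne g 0 with rfl | hg
  · refine Set.finite_empty.subset fun v hv => hv ?_
    rw [(coordOf v (IsCurveOver.deg_eq_one_of_isAlgClosed v)).ordDifferential_eq
      IsCurveOver.finrank_kaehler]
    simp
  have hω := D_ne_zero_of_transcendental (K := K) hx
  have hne : ∀ a : K, x ≠ algebraMap K F a := fun a h => hx (h ▸ isAlgebraic_algebraMap a)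
  have hpole : {v : Place K F | v.ord x < 0}.Finite :=
    (finite_notMem (K := K) x).subset fun v hv h =>
    absurd ((mem_iff v).mp h) (not_le.mpr hv)
  have hnn : ∀ v : Place K F, 0 ≤ v.ord x → 0 ≤ v.ordDifferential (D K F x) := fun v hv => by
    obtain ⟨a, ha⟩ := Differentials.exists_ord_sub_pos
      (IsCurveOver.deg_eq_one_of_isAlgClosed v) hv hne
    rw [ordDifferential_D_sub IsCurveOver.finrank_kaehler
      (IsCurveOver.deg_eq_one_of_isAlgClosed v) ha.ne']
    omega
  obtain ⟨c, hc⟩ := FunctionField.exists_index_eq_zero (K := K) (F := F)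
  let B : Divisor K F :=
    Finsupp.onFinset hpole.toFinset
      (fun v => if v.ord x < 0 then v.ordDifferential (D K F x) else 0)
      (fun v hv => by by_contra hh; exact hv (if_neg (by simpa using hh)))
  have hB : ∀ v, B v = if v.ord x < 0 then v.ordDifferential (D K F x) else 0 := fun v => rfl
  have hfin : {v : Place K F | 0 ≤ v.ord x ∧ v.ordDifferential (D K F x) ≠ 0}.Finite := by
    by_contra hinf
    obtain ⟨S, hS, hcard⟩ := Set.Infinite.exists_subset_card_eq hinf
      ((c - Divisor.degree B).toNat + 1)
    have hbound : (c - Divisor.degree B).toNat < S.card := by omega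
    refine index_ne_zero hω (E := B + ∑ v ∈ S, Finsupp.single v 1) (fun v => ?_) (hc _ ?_)
    · rw [Finsupp.add_apply, hB, Finsupp.finsetSum_apply]
      simp only [Finsupp.single_apply, Finset.sum_ite_eq']
      by_cases hv : v ∈ S
      · have h2 := hS hv
        simp only [Set.mem_ofPred_eq] at h2
        rw [if_neg (by omega), if_pos hv]
        have := hnn v h2.1
        omega
      · rw [if_neg hv, add_zero]
        split_ifs with h
        · exact le_rfl
        · exact hnn v (not_lt.mp h)
    · rw [map_add, map_sum]
      simp only [Divisor.degree_single, IsCurveOver.deg_eq_one_of_isAlgClosed, Nat.cast_one,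
        mul_one, Finset.sum_const, nsmul_eq_mul]
      omega
  refine ((hpole.union hfin).union (FFPlaces.support_finite
     (fun y hy => FunctionField.IsFunctionField.finiteDimensional_adjoin (K := K) y hy)
     g)).subset fun v hv => ?_
  simp only [Set.mem_ofPred_eq] at hv
  rw [ordDifferential_smul_eq IsCurveOver.finrank_kaehler
    (IsCurveOver.deg_eq_one_of_isAlgClosed v) hg hω] at hv
  simp only [Set.mem_union, Set.mem_ofPred_eq]
  by_contra hh
  simp only [not_or, not_and, not_not, not_lt] at hh
  exact hv (by rw [hh.1.2 hh.1.1, hh.2, add_zero])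

/-- The Prelude class `HasCanonicalDivisor`. -/
theorem hasCanonicalDivisor : HasCanonicalDivisor (K := K) (F := F) :=
  ⟨fun ω _ => ⟨Finsupp.ofSupportFinite _ (finite_ordDifferential_ne_zero ω), fun _ => rfl⟩⟩

end Fermat.Agent.Differentials
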