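import Fermat.Prelude.Def_AlgebraicCurve_Repartitions
import Mathlib.RingTheory.LaurentSeries
import Mathlib.RingTheory.PowerSeries.Trunc
import Mathlib.RingTheory.Polynomial.Basic

/-!
# Laurent expansion at a rational place

A coordinate at a place `v` of `F/K` is an irreducible element `t` of the valuation ring together
with the hypothesis that the residue field is `K`.  It yields an embedding
`F →ₐ[K] LaurentSeries K` under which `v.ord` becomes the order of the series.
-/

noncomputable section

namespace Fermat.Agent.Differentials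

open AlgebraicCurve Polynomial

variable {K F : Type*} [Field K] [Field F] [Algebra K F]

/-- A place whose residue field is `K`, with a chosen uniformiser. -/
structure Coord (v : Place K F) where
  t : v.toValuationSubring
  irred : Irreducible t
  resBij : Function.Bijective (algebraMap K v.ResidueField)

/-- A place of degree one has residue field `K`. -/
theorem resBij_of_deg_eq_one {v : Place K F} (hv : v.deg = 1) :
    Function.Bijective (algebraMap K v.ResidueField) := by
  refine ⟨(algebraMap K v.ResidueField).injective, fun x => ?_⟩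
  obtain ⟨c, hc⟩ := exists_smul_eq_of_finrank_eq_one hv (one_ne_zero (α := v.ResidueField)) x
  exact ⟨c, by rw [Algebra.algebraMap_eq_smul_one, hc]⟩

/-- The valuation ring consists of the functions of nonnegative order. -/
theorem mem_iff_ord_nonneg (v : Place K F) {f : F} (hf : f ≠ 0) :
    f ∈ v.toValuationSubring ↔ 0 ≤ v.ord f := by
  obtain ⟨π, hπ⟩ := IsDiscreteValuationRing.exists_irreducible v.toValuationSubring
  refine
    ⟨fun h => (v.adicValuation_le_one_iff.mp (v.adicValuation_le_one_of_mem h)).resolve_left hf,
    fun h => ?_⟩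
  obtain ⟨u, hu⟩ := v.exists_unit_mul_zpow hf hπ
  rw [hu, show v.ord f = (((v.ord f).toNat : ℕ) : ℤ) from (Int.toNat_of_nonneg h).symm,
    zpow_natCast]
  exact mul_mem (u : v.toValuationSubring).2 (pow_mem π.2 _)

/-- The chosen coordinate at a place of degree one. -/
def coordOf (v : Place K F) (hv : v.deg = 1) : Coord v where
  t := (IsDiscreteValuationRing.exists_irreducible v.toValuationSubring).choose
  irred := (IsDiscreteValuationRing.exists_irreducible v.toValuationSubring).choose_spec
  resBij := resBij_of_deg_eq_one hv

/-- A power series has no coefficient in negative degree. -/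
theorem ofPowerSeries_coeff_neg (φ : PowerSeries K) {k : ℤ} (hk : k < 0) :
    (HahnSeries.ofPowerSeries ℤ K φ).coeff k = 0 := by
  rw [HahnSeries.ofPowerSeries_apply]
  refine HahnSeries.embDomain_of_notMem_range ?_
  rintro ⟨m, rfl⟩
  exact absurd hk (not_lt.mpr (Int.natCast_nonneg m))

namespace Coord

variable {v : Place K F} (c : Coord v)

/-- Value at the place. -/
def res : v.toValuationSubring →ₐ[K] K :=
  (AlgEquiv.ofBijective (Algebra.ofId K v.ResidueField) c.resBij).symm.toAlgHom.comp
    (IsScalarTower.toAlgHom K v.toValuationSubring v.ResidueField)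

theorem res_eq_zero_iff {f : v.toValuationSubring} : c.res f = 0 ↔ c.t ∣ f := by
  rw [← Ideal.mem_span_singleton, ← c.irred.maximalIdeal_eq, ← IsLocalRing.residue_eq_zero_iff]
  exact map_eq_zero_iff _
    (AlgEquiv.ofBijective (Algebra.ofId K v.ResidueField) c.resBij).symm.injective

theorem res_t : c.res c.t = 0 := c.res_eq_zero_iff.mpr dvd_rfl

theorem dvd_sub_res (f : v.toValuationSubring) :
    c.t ∣ f - algebraMap K v.toValuationSubring (c.res f) := by
  rw [← c.res_eq_zero_iff]; simp

/-- The quotient `(f - f(v)) / t`. -/
def shift (f : v.toValuationSubring) : v.toValuationSubring := (c.dvd_sub_res f).choose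

/-- An integral element is its residue plus `t` times its shift. -/
theorem res_add_t_mul_shift (f : v.toValuationSubring) :
    algebraMap K v.toValuationSubring (c.res f) + c.t * c.shift f = f := by
  rw [shift, ← (c.dvd_sub_res f).choose_spec]; ring

/-- Taylor coefficients with respect to `t`. -/
def taylor (f : v.toValuationSubring) : PowerSeries K :=
  PowerSeries.mk fun n => c.res (c.shift^[n] f)

/-- The Taylor formula with remainder. -/
theorem eq_aeval_trunc_add (f : v.toValuationSubring) (n : ℕ) :
    f = aeval c.t (PowerSeries.trunc n (c.taylor f)) + c.t ^ n * c.shift^[n] f := by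
  induction n with
  | zero => simp [PowerSeries.trunc_zero']
  | succ n ih =>
    rw [PowerSeries.trunc_succ, map_add, aeval_monomial, Function.iterate_succ_apply']
    conv_lhs => rw [ih, ← c.res_add_t_mul_shift (c.shift^[n] f)]
    simp only [taylor, PowerSeries.coeff_mk]
    ring

theorem dvd_sub_aeval_trunc (f : v.toValuationSubring) (n : ℕ) :
    c.t ^ n ∣ f - aeval c.t (PowerSeries.trunc n (c.taylor f)) :=
  ⟨c.shift^[n] f, by linear_combination c.eq_aeval_trunc_add f n⟩

theorem coeff_eq_zero_of_dvd_aeval (n : ℕ) :
    ∀ p : K[X], c.t ^ n ∣ aeval c.t p → ∀ m < n, p.coeff m = 0 := by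
  induction n with
  | zero => simp
  | succ n ih =>
    intro p hp m hm
    have h0 : p.coeff 0 = 0 := by
      have h1 : c.res (aeval c.t p) = 0 :=
        c.res_eq_zero_iff.mpr (dvd_trans (dvd_pow_self _ (by omega)) hp)
      rw [← aeval_algHom_apply, c.res_t] at h1
      simpa [← coeff_zero_eq_aeval_zero] using h1
    have hX := X_mul_divX_add p
    rw [h0, map_zero, add_zero] at hX
    rw [← hX, map_mul, aeval_X, pow_succ'] at hp
    have hd := (mul_dvd_mul_iff_left c.irred.ne_zero).mp hp
    cases m with
    | zero => exact h0
    | succ m =>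
      rw [← coeff_divX]
      exact ih _ hd m (by omega)

theorem dvd_aeval_of_coeff (n : ℕ) (p : K[X]) (h : ∀ m < n, p.coeff m = 0) :
    c.t ^ n ∣ aeval c.t p := by
  obtain ⟨q, rfl⟩ := X_pow_dvd_iff.mpr h
  exact ⟨aeval c.t q, by simp⟩

/-- Characterisation of the Taylor expansion. -/
theorem taylor_eq_of_dvd {f : v.toValuationSubring} {φ : PowerSeries K}
    (h : ∀ n, c.t ^ n ∣ f - aeval c.t (PowerSeries.trunc n φ)) : c.taylor f = φ := by
  ext m
  have hd := dvd_sub (h (m + 1)) (c.dvd_sub_aeval_trunc f (m + 1))
  rw [sub_sub_sub_cancel_left, ← map_sub] at hd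
  have := c.coeff_eq_zero_of_dvd_aeval (m + 1) _ hd m (by omega)
  simpa [PowerSeries.coeff_trunc, sub_eq_zero] using this

theorem taylor_coe (p : K[X]) : c.taylor (aeval c.t p) = p := by
  refine c.taylor_eq_of_dvd fun n => ?_
  rw [← map_sub]
  refine c.dvd_aeval_of_coeff n _ fun m hm => ?_
  simp [PowerSeries.coeff_trunc, hm]

theorem taylor_add (f g : v.toValuationSubring) :
    c.taylor (f + g) = c.taylor f + c.taylor g := by
  refine c.taylor_eq_of_dvd fun n => ?_
  rw [map_add, map_add, add_sub_add_comm]
  exact dvd_add (c.dvd_sub_aeval_trunc f n) (c.dvd_sub_aeval_trunc g n)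

theorem taylor_mul (f g : v.toValuationSubring) :
    c.taylor (f * g) = c.taylor f * c.taylor g := by
  refine c.taylor_eq_of_dvd fun n => ?_
  set p := PowerSeries.trunc n (c.taylor f) with hp
  set q := PowerSeries.trunc n (c.taylor g) with hq
  set r := PowerSeries.trunc n (c.taylor f * c.taylor g) with hr
  have h1 : c.t ^ n ∣ aeval c.t (p * q - r) := by
    refine c.dvd_aeval_of_coeff n _ fun m hm => ?_
    rw [coeff_sub, hr, PowerSeries.coeff_trunc, if_pos hm,
      PowerSeries.coeff_mul_eq_coeff_trunc_mul_trunc _ _ hm, ← hp, ← hq, ← Polynomial.coe_mul,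
      Polynomial.coeff_coe, sub_self]
  have h2 : c.t ^ n ∣ f * g - aeval c.t p * aeval c.t q := by
    rw [show f * g - aeval c.t p * aeval c.t q =
        f * (g - aeval c.t q) + (f - aeval c.t p) * aeval c.t q by ring]
    exact dvd_add (dvd_mul_of_dvd_right (c.dvd_sub_aeval_trunc g n) _)
      (dvd_mul_of_dvd_left (c.dvd_sub_aeval_trunc f n) _)
  have := dvd_add h2 h1
  rwa [map_sub, map_mul, sub_add_sub_cancel] at this

/-- The Taylor expansion as an algebra homomorphism. -/
def taylorHom : v.toValuationSubring →ₐ[K] PowerSeries K where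
  toFun := c.taylor
  map_one' := by simpa using c.taylor_coe 1
  map_mul' := c.taylor_mul
  map_zero' := by simpa using c.taylor_coe 0
  map_add' := c.taylor_add
  commutes' a := by simpa [PowerSeries.algebraMap_apply] using c.taylor_coe (Polynomial.C a)

theorem taylorHom_t : c.taylorHom c.t = PowerSeries.X := by
  simpa [taylorHom] using c.taylor_coe Polynomial.X

theorem isUnit_taylorHom_unit (u : v.toValuationSubringˣ) :
    IsUnit (c.taylorHom (u : v.toValuationSubring)) := u.isUnit.map _

theorem taylorHom_injective : Function.Injective c.taylorHom := by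
  refine (injective_iff_map_eq_zero _).mpr fun f hf => ?_
  by_contra h
  obtain ⟨n, u, rfl⟩ := IsDiscreteValuationRing.eq_unit_mul_pow_irreducible h c.irred
  rw [map_mul, map_pow, c.taylorHom_t] at hf
  rcases mul_eq_zero.mp hf with h' | h'
  · exact (c.isUnit_taylorHom_unit u).ne_zero h'
  · exact pow_ne_zero _ PowerSeries.X_ne_zero h'

/-- The Taylor expansion, valued in Laurent series. -/
def taylorLaurent : v.toValuationSubring →ₐ[K] LaurentSeries K :=
  { (HahnSeries.ofPowerSeries ℤ K).comp (c.taylorHom : v.toValuationSubring →+* PowerSeries K) with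
    commutes' := fun a => by
      simp [HahnSeries.ofPowerSeries_C, HahnSeries.algebraMap_apply'] }

theorem taylorLaurent_injective : Function.Injective c.taylorLaurent :=
  fun _ _ h => c.taylorHom_injective (HahnSeries.ofPowerSeries_injective h)

/-- The Laurent expansion at the place with respect to the coordinate. -/
def expand : F →ₐ[K] LaurentSeries K :=
  IsFractionRing.liftAlgHom (K := F) c.taylorLaurent_injective

/-- On the valuation ring the expansion is the Taylor series. -/
theorem expand_coe (f : v.toValuationSubring) :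
    c.expand (f : F) = HahnSeries.ofPowerSeries ℤ K (c.taylorHom f) :=
  IsFractionRing.lift_algebraMap c.taylorLaurent_injective f

/-- The expansion of the uniformiser is the variable. -/
theorem expand_t : c.expand (c.t : F) = HahnSeries.single 1 1 := by
  rw [expand_coe, c.taylorHom_t, HahnSeries.ofPowerSeries_X]

/-- The expansion of a constant is that constant. -/
theorem expand_algebraMap (a : K) : c.expand (algebraMap K F a) = HahnSeries.C a := by
  rw [← v.coe_algebraMap a, c.expand_coe, AlgHom.commutes, PowerSeries.algebraMap_apply]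
  simp [HahnSeries.ofPowerSeries_C]

/-- The order of the expansion is the order at the place. -/
theorem order_expand (f : F) : (c.expand f).order = v.ord f := by
  rcases eq_or_ne f 0 with rfl | hf
  · simp
  obtain ⟨u, hu⟩ := v.exists_unit_mul_zpow hf c.irred
  generalize v.ord f = n at hu
  subst hu
  have hu0 : PowerSeries.constantCoeff (c.taylorHom (u : v.toValuationSubring)) ≠ 0 :=
    (PowerSeries.isUnit_iff_constantCoeff.mp (c.isUnit_taylorHom_unit u)).ne_zero
  rw [map_mul, map_zpow₀, c.expand_t, c.expand_coe, ← RatFunc.single_zpow]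
  have hne : HahnSeries.ofPowerSeries ℤ K (c.taylorHom (u : v.toValuationSubring)) ≠ 0 :=
    (map_ne_zero_iff _ HahnSeries.ofPowerSeries_injective).mpr
      (c.isUnit_taylorHom_unit u).ne_zero
  rw [HahnSeries.order_mul hne (HahnSeries.single_ne_zero one_ne_zero),
    HahnSeries.order_single one_ne_zero, add_eq_right]
  refine le_antisymm (HahnSeries.order_le_of_coeff_ne_zero ?_) ?_
  · rw [show (0 : ℤ) = ((0 : ℕ) : ℤ) from rfl, HahnSeries.ofPowerSeries_apply_coeff,
      PowerSeries.coeff_zero_eq_constantCoeff]
    exact hu0
  · by_contra hlt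
    exact HahnSeries.coeff_order_eq_zero.not.mpr hne
      (ofPowerSeries_coeff_neg _ (not_le.mp hlt))

end Coord

end Fermat.Agent.Differentials
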