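import Fermat.Agent.Differentials.Approximation
import Fermat.Agent.FFPlaces.Curve
import Fermat.Prelude.Def_AlgebraicCurve_DivisorPushPull
import Mathlib.Algebra.Algebra.Tower
import Mathlib.LinearAlgebra.LinearIndependent.Basic

/-!
# The fundamental identity for a finite extension of function fields

`∑ e ≤ [L:F]` by linear independence; equality follows from the degree of the zero divisor of a
uniformiser.
-/

noncomputable section

namespace Fermat.Agent.Differentials


open AlgebraicCurve FFPlaces IntermediateField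

variable {K F L : Type*} [Field K] [Field F] [Field L] [Algebra K F] [Algebra K L] [Algebra F L]
  [IsScalarTower K F L] [FiniteDimensional F L]

/-- `∑ e ≤ [L : F]` over finitely many places above one place. -/
theorem sum_ramificationIndex_le (v : Place K F) (T : Finset (Place K L))
    (hT : ∀ w ∈ T, w.restrict F = v) :
    ∑ w ∈ T, w.ramificationIndex F ≤ Module.finrank F L := by
  classical
  set N : ℤ := ((T.sup fun w => w.ramificationIndex F : ℕ) : ℤ) with hN
  let ι := Σ w : T, Fin ((w : Place K L).ramificationIndex F)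
  have hex : ∀ p : ι, ∃ b : L, b ≠ 0 ∧ (p.1 : Place K L).ord b = (p.2 : ℕ) ∧
      ∀ u ∈ T.erase (p.1 : Place K L), N ≤ u.ord b :=
    fun p => exists_ord_eq_and_le _ _ (Finset.notMem_erase _ _) _ _
  choose b hb0 hb hbo using hex
  suffices h : LinearIndependent F b by
    have := h.fintype_card_le_finrank
    simpa [ι, Fintype.card_sigma, Finset.sum_attach T (fun w => w.ramificationIndex F)] using this
  rw [Fintype.linearIndependent_iff]
  intro a ha
  by_contra hne
  push Not at hne
  obtain ⟨p₀, hp₀⟩ := hne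
  let A : Finset ι := Finset.univ.filter fun p => a p ≠ 0
  have hA : ∀ p, p ∈ A ↔ a p ≠ 0 := by simp [A]
  obtain ⟨q, hqA, hq⟩ := A.exists_min_image (fun p => v.ord (a p)) ⟨p₀, (hA _).mpr hp₀⟩
  set w : Place K L := (q.1 : Place K L) with hw
  set e : ℤ := (w.ramificationIndex F : ℤ) with he
  set m : ℤ := v.ord (a q) with hm
  have hwv : w.restrict F = v := hT _ q.1.2
  have hordA : ∀ p ∈ A, w.ord (algebraMap F L (a p) * b p) = e * v.ord (a p) + w.ord (b p) := by
    intro p hp
    rw [w.ord_mul ((map_ne_zero _).mpr ((hA p).mp hp)) (hb0 p), w.ord_restrict, hwv]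
  have he0 : 0 ≤ e := Int.natCast_nonneg _
  have heN : e ≤ N := by
    rw [he, hN]; exact_mod_cast Finset.le_sup (f := fun w => w.ramificationIndex F) q.1.2
  -- among the `w`-indices, the unique term of least order
  obtain ⟨r, hrA, hrw, hr⟩ : ∃ r ∈ A, r.1 = q.1 ∧
      ∀ p ∈ A, p ≠ r → w.ord (algebraMap F L (a r) * b r) < w.ord (algebraMap F L (a p) * b p) := by
    let B := A.filter fun p => p.1 = q.1
    obtain ⟨r, hrB, hrmin⟩ := B.exists_min_image (fun p => w.ord (algebraMap F L (a p) * b p))
      ⟨q, by simp [B, hqA]⟩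
    rw [Finset.mem_filter] at hrB
    refine ⟨r, hrB.1, hrB.2, fun p hp hpr => ?_⟩
    have hrle : w.ord (algebraMap F L (a r) * b r) ≤ e * m + (q.2 : ℕ) := by
      refine (hrmin q (by simp [B, hqA])).trans (le_of_eq ?_)
      rw [hordA q hqA, hb q]
    by_cases hpw : p.1 = q.1
    · refine lt_of_le_of_ne (hrmin p (by simp [B, hp, hpw])) fun heq => hpr ?_
      rw [hordA r hrB.1, hordA p hp] at heq
      obtain ⟨pw, pi⟩ := p
      obtain ⟨rw', ri⟩ := r
      obtain rfl : pw = q.1 := hpw
      obtain rfl : rw' = q.1 := hrB.2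
      have hr2 : w.ord (b ⟨q.1, ri⟩) = ((ri : ℕ) : ℤ) := hb ⟨q.1, ri⟩
      have hp2 : w.ord (b ⟨q.1, pi⟩) = ((pi : ℕ) : ℤ) := hb ⟨q.1, pi⟩
      rw [hr2, hp2] at heq
      have hlt1 : ((ri : ℕ) : ℤ) < e := by rw [he]; exact_mod_cast ri.2
      have hlt2 : ((pi : ℕ) : ℤ) < e := by rw [he]; exact_mod_cast pi.2
      have hz : v.ord (a ⟨q.1, ri⟩) = v.ord (a ⟨q.1, pi⟩) := by nlinarith
      rw [hz] at heq
      exact Sigma.ext rfl (heq_of_eq (Fin.ext (by simpa using (add_left_cancel heq).symm)))
    · have hne' : w ∈ T.erase (p.1 : Place K L) :=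
        Finset.mem_erase.mpr ⟨fun h => hpw (Subtype.ext h.symm), q.1.2⟩
      have h1 := hbo p w hne'
      have h2 := hq p hp
      have hlt : ((q.2 : ℕ) : ℤ) < e := by rw [he]; exact_mod_cast q.2.2
      rw [hordA p hp]
      nlinarith
  have hfun : ∀ p : ι, a p • b p = algebraMap F L (a p) * b p := fun p => Algebra.smul_def _ _
  simp only [hfun] at ha
  have hr0 : algebraMap F L (a r) * b r ≠ 0 :=
    mul_ne_zero ((map_ne_zero _).mpr ((hA r).mp hrA)) (hb0 r)
  have hval : w.adicValuation (∑ p, algebraMap F L (a p) * b p)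
      = w.adicValuation (algebraMap F L (a r) * b r) := by
    refine Valuation.map_sum_eq_of_lt _ (Finset.mem_univ r) fun p hp => ?_
    rw [Finset.mem_sdiff, Finset.mem_singleton] at hp
    by_cases hpA : p ∈ A
    · rw [adicValuation_eq_exp w hr0,
        adicValuation_eq_exp w (mul_ne_zero ((map_ne_zero _).mpr ((hA p).mp hpA)) (hb0 p)),
        WithZero.exp_lt_exp]
      have := hr p hpA hp.2
      omega
    · rw [hA, not_not] at hpA
      rw [hpA, map_zero, zero_mul, map_zero]
      exact zero_lt_iff.mpr (w.adicValuation_ne_zero hr0)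
  rw [ha, map_zero] at hval
  exact w.adicValuation_ne_zero hr0 hval.symm

omit [FiniteDimensional F L] in
/-- The degree over `K(x)` may be computed with `x` or with its image in `L`. -/
theorem finrank_adjoin_algebraMap (x : F) :
    Module.finrank K⟮algebraMap F L x⟯ L = Module.finrank K⟮x⟯ L := by
  have h : K⟮x⟯.map (IsScalarTower.toAlgHom K F L) = K⟮algebraMap F L x⟯ := by
    rw [adjoin_map, Set.image_singleton]; rfl
  let e : K⟮x⟯ ≃ₐ[K] K⟮algebraMap F L x⟯ :=
    (K⟮x⟯.equivMap (IsScalarTower.toAlgHom K F L)).trans (IntermediateField.equivOfEq h)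
  refine (Algebra.finrank_eq_of_equiv_equiv e.toRingEquiv (RingEquiv.refl L) ?_).symm
  refine RingHom.ext fun y => ?_
  rfl

/-- The fundamental identity `∑ e f = [L : F]`. -/
theorem fundamentalIdentity [IsAlgClosed K] [CharZero K] [HasPrincipalDivisors K L]
    (hF : FiniteOverGen K F) (hL : FiniteOverGen K L) : FundamentalIdentity K F L := by
  classical
  refine ⟨fun v => ?_⟩
  simp only [deg_eq_one' hL, deg_eq_one' hF, Nat.cast_one, mul_one]
  obtain ⟨π, hπ0, hπ⟩ := exists_uniformizer v
  have htF : Transcendental K π := transcendental_of_ord_ne_zero v (by omega)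
  have hπL0 : algebraMap F L π ≠ 0 := (map_ne_zero _).mpr hπ0
  have htL : Transcendental K (algebraMap F L π) :=
    (transcendental_algebraMap_iff (algebraMap F L).injective).mpr htF
  have := pos_fiber hF htF
  have := pos_fiber hL htL
  let := Fintype.ofFinite {u : Place K F // 0 < u.ord π}
  let := Fintype.ofFinite {w : Place K L // 0 < w.ord (algebraMap F L π)}
  have := hF π htF
  set Z : Finset (Place K F) := (Finset.univ : Finset {u : Place K F // 0 < u.ord π}).map
    (Function.Embedding.subtype _) with hZdef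
  have hZ : ∀ u, u ∈ Z ↔ 0 < u.ord π := fun u => by simp [Z]
  have hsumF : ∑ u ∈ Z, u.ord π = (Module.finrank K⟮π⟯ F : ℤ) := by
    rw [← sum_ord_pos hF htF, hZdef, Finset.sum_map]; rfl
  have hsumL : ∑ w ∈ Z.biUnion (fun u => u.fiber L), w.ord (algebraMap F L π)
      = (Module.finrank K⟮π⟯ F : ℤ) * (Module.finrank F L : ℤ) := by
    rw [← Nat.cast_mul, Module.finrank_mul_finrank, ← finrank_adjoin_algebraMap (L := L) π,
      ← sum_ord_pos hL htL]
    refine Finset.sum_subtype _ (fun w => ?_) _
    rw [Finset.mem_biUnion, w.ord_restrict π]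
    have he := w.ramificationIndex_pos (F := F)
    constructor
    · rintro ⟨u, hu, hw⟩
      rw [Place.mem_fiber.mp hw]
      exact mul_pos (by omega) ((hZ u).mp hu)
    · intro h
      exact ⟨w.restrict F, (hZ _).mpr (pos_of_mul_pos_right h (by omega)),
        w.restrict_mem_fiber⟩
  rw [Finset.sum_biUnion fun a _ b _ hab => Finset.disjoint_left.mpr fun w ha hb =>
      hab ((Place.mem_fiber.mp ha).symm.trans (Place.mem_fiber.mp hb))] at hsumL
  have hfib : ∀ u : Place K F, ∑ w ∈ u.fiber L, w.ord (algebraMap F L π)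
      = u.ord π * ∑ w ∈ u.fiber L, (w.ramificationIndex F : ℤ) := fun u => by
    rw [Finset.mul_sum]
    exact Finset.sum_congr rfl fun w hw => by rw [w.ord_restrict, Place.mem_fiber.mp hw, mul_comm]
  rw [Finset.sum_congr rfl fun u _ => hfib u, ← hsumF, Finset.sum_mul] at hsumL
  have hle : ∀ u ∈ Z, u.ord π * ∑ w ∈ u.fiber L, (w.ramificationIndex F : ℤ)
      ≤ u.ord π * (Module.finrank F L : ℤ) := fun u hu =>
    mul_le_mul_of_nonneg_left
      (by exact_mod_cast sum_ramificationIndex_le u (u.fiber L) fun w hw => Place.mem_fiber.mp hw)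
      ((hZ u).mp hu).le
  have h := (Finset.sum_eq_sum_iff_of_le hle).mp hsumL v ((hZ v).mpr (by omega))
  rwa [hπ, one_mul, one_mul] at h

end Fermat.Agent.Differentials
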