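import Fermat.Agent.Differentials.ResidueMap
import Fermat.Prelude.Def_AlgebraicCurve_IsCurveOver
import Fermat.Prelude.Def_AlgebraicCurve_DivisorPushPull

/-!
# The residue theorem in characteristic zero

For `F` with an extension `L` Galois over `K(x)`: the sum of residues vanishes on exact and
logarithmic differentials, hence on `h dx` for `h ∈ K(x)`; averaging over the Galois group gives
`L`, and the fundamental identity descends to `F`.
-/

noncomputable section

namespace Fermat.Agent.Differentials

open AlgebraicCurve KaehlerDifferential HahnSeries Polynomial IntermediateField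

section Global

variable {K F : Type*} [Field K] [Field F] [Algebra K F] [IsAlgClosed K] [IsCurveOver K F]

/-- The residue at a place. -/
def resAt (v : Place K F) : Ω[F⁄K] →ₗ[K] K :=
  (coordOf v (IsCurveOver.deg_eq_one_of_isAlgClosed v)).residue

variable [CharZero K]

omit [CharZero K] in
/-- Exact differentials have no residues. -/
theorem resAt_D (v : Place K F) (f : F) : resAt v (D K F f) = 0 := Coord.residue_D _ f

omit [CharZero K] in
/-- The residue of `df / f` is the order of `f`. -/
theorem resAt_logDeriv (v : Place K F) {f : F} (hf : f ≠ 0) :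
    resAt v (f⁻¹ • D K F f) = (v.ord f : K) := by
  rw [resAt, Coord.residue_apply, Coord.diffExp_smul, Coord.diffExp_D, map_inv₀,
    coeff_neg_one_logDeriv _ ((_root_.map_ne_zero _).mpr hf), Coord.order_expand]

omit [CharZero K] in
/-- Regular differentials have residue zero. -/
theorem resAt_eq_zero_of_regular (v : Place K F) {g f : F} (hg : g ∈ v.toValuationSubring)
    (hf : f ∈ v.toValuationSubring) : resAt v (g • D K F f) = 0 := by
  rw [resAt, Coord.residue_apply, Coord.diffExp_smul, Coord.diffExp_D,
    Coord.expand_coe _ ⟨g, hg⟩, Coord.expand_coe _ ⟨f, hf⟩]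
  obtain ⟨ψ, hψ⟩ := deriv'_ofPowerSeries_mem ((coordOf v _).taylorHom ⟨f, hf⟩)
  rw [hψ, ← map_mul]
  exact coeff_neg_one_of_ofPowerSeries _

omit [IsAlgClosed K] [CharZero K] in
/-- An element has only finitely many poles. -/
theorem finite_notMem (f : F) : {v : Place K F | f ∉ v.toValuationSubring}.Finite := by
  rcases eq_or_ne f 0 with rfl | hf
  · simp
  obtain ⟨P, hP, -⟩ := HasPrincipalDivisors.exists_divisor (K := K) f hf
  refine P.support.finite_toSet.subset fun v hv => ?_
  simp only [Set.mem_ofPred_eq, mem_iff_ord_nonneg v hf, not_le] at hv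
  rw [Finset.mem_coe, Finsupp.mem_support_iff, hP]
  exact hv.ne

omit [CharZero K] in
/-- A differential has finitely many nonzero residues. -/
theorem support_resAt_finite (ω : Ω[F⁄K]) :
    (Function.support fun v : Place K F => resAt v ω).Finite := by
  rcases subsingleton_or_nontrivial Ω[F⁄K] with h | h
  · simp [Subsingleton.elim ω 0]
  obtain ⟨x, hx⟩ : ∃ x : F, D K F x ≠ 0 := by
    by_contra hh
    push Not at hh
    obtain ⟨y, hy⟩ := exists_ne (0 : Ω[F⁄K])
    refine hy ?_
    have : y ∈ Submodule.span F (Set.range (D K F)) := by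
      rw [KaehlerDifferential.span_range_derivation]; exact Submodule.mem_top
    rw [show Set.range (D K F) = {0} from Set.eq_singleton_iff_unique_mem.mpr
      ⟨⟨0, map_zero _⟩, by rintro _ ⟨z, rfl⟩; exact hh z⟩] at this
    simpa using this
  obtain ⟨g, rfl⟩ := exists_eq_smul_of_finrank_kaehler IsCurveOver.finrank_kaehler hx ω
  refine ((finite_notMem (K := K) g).union (finite_notMem (K := K) x)).subset fun v hv => ?_
  by_contra hh
  simp only [Set.mem_union, Set.mem_ofPred_eq, not_or, not_not] at hh
  exact hv (resAt_eq_zero_of_regular v hh.1 hh.2)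

/-- The sum of all residues. -/
def residueSum : Ω[F⁄K] →ₗ[K] K where
  toFun ω := ∑ᶠ v : Place K F, resAt v ω
  map_add' a b := by
    simp only [map_add]
    exact finsum_add_distrib (support_resAt_finite a) (support_resAt_finite b)
  map_smul' a ω := by
    simp only [map_smul, RingHom.id_apply, smul_eq_mul]
    exact (mul_finsum' _ a (support_resAt_finite ω)).symm

omit [CharZero K] in
theorem residueSum_apply (ω : Ω[F⁄K]) : residueSum ω = ∑ᶠ v : Place K F, resAt v ω := rfl

omit [CharZero K] in
/-- The residues of an exact differential sum to zero. -/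
theorem residueSum_D (f : F) : residueSum (D K F f) = (0 : K) := by
  simp [residueSum_apply, resAt_D]

omit [CharZero K] in
/-- The residues of a logarithmic differential sum to zero. -/
theorem residueSum_logDeriv (f : F) : residueSum (f⁻¹ • D K F f) = (0 : K) := by
  rcases eq_or_ne f 0 with rfl | hf
  · simp
  obtain ⟨P, hP, hP0⟩ := HasPrincipalDivisors.exists_divisor (K := K) f hf
  have hfun : (fun v : Place K F => resAt v (f⁻¹ • D K F f)) = fun v => ((P v : ℤ) : K) :=
    funext fun v => by rw [resAt_logDeriv v hf, hP]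
  rw [residueSum_apply, hfun, finsum_eq_sum_of_support_subset _ (s := P.support) (by
      intro v hv
      rw [Finset.mem_coe, Finsupp.mem_support_iff]
      intro h
      exact hv (by simp [h])),
    ← Int.cast_sum, ← degree_eq_sum_of_deg_one IsCurveOver.deg_eq_one_of_isAlgClosed P le_rfl,
    hP0, Int.cast_zero]

/-- The span of powers of `x` and of inverse powers of the `x - a`. -/
def elemSpan (x : F) : Submodule K F :=
  Submodule.span K (Set.range (fun i : ℕ => x ^ i) ∪
    Set.range (fun p : K × ℕ => ((x - algebraMap K F p.1) ^ p.2)⁻¹))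

omit [IsAlgClosed K] [IsCurveOver K F] [CharZero K] in
theorem pow_mem_elemSpan (x : F) (i : ℕ) : x ^ i ∈ elemSpan (K := K) x :=
  Submodule.subset_span (Or.inl ⟨i, rfl⟩)

omit [IsAlgClosed K] [IsCurveOver K F] [CharZero K] in
theorem inv_pow_mem_elemSpan (x : F) (a : K) (k : ℕ) :
    ((x - algebraMap K F a) ^ k)⁻¹ ∈ elemSpan (K := K) x :=
  Submodule.subset_span (Or.inr ⟨(a, k), rfl⟩)

omit [IsAlgClosed K] [IsCurveOver K F] [CharZero K] in
theorem mul_inv_mem_elemSpan {x : F} (hx : ∀ a : K, x ≠ algebraMap K F a) (a : K) {y : F}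
    (hy : y ∈ elemSpan (K := K) x) : y * (x - algebraMap K F a)⁻¹ ∈ elemSpan (K := K) x := by
  have hne : ∀ b : K, x - algebraMap K F b ≠ 0 := fun b => sub_ne_zero.mpr (hx b)
  refine Submodule.span_induction ?_ (by simp) (fun _ _ _ _ h1 h2 => ?_) (fun r _ _ h => ?_) hy
  · rintro _ (⟨i, rfl⟩ | ⟨⟨b, k⟩, rfl⟩)
    · induction i with
      | zero => simpa using inv_pow_mem_elemSpan x a 1
      | succ i ih =>
        have : x ^ (i + 1) * (x - algebraMap K F a)⁻¹
            = x ^ i + a • (x ^ i * (x - algebraMap K F a)⁻¹) := by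
          rw [Algebra.smul_def]; field_simp [hne a]; ring
        simp only [this]
        exact add_mem (pow_mem_elemSpan x i) (Submodule.smul_mem _ a ih)
    · rcases eq_or_ne a b with rfl | hab
      · simp only
        rw [← mul_inv, ← pow_succ]
        exact inv_pow_mem_elemSpan x a (k + 1)
      · induction k with
        | zero => simpa using inv_pow_mem_elemSpan x a 1
        | succ k ih =>
          have hab' : algebraMap K F b - algebraMap K F a ≠ 0 := by
            rw [← map_sub, _root_.map_ne_zero]; exact sub_ne_zero.mpr (Ne.symm hab)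
          have : ((x - algebraMap K F b) ^ (k + 1))⁻¹ * (x - algebraMap K F a)⁻¹
              = (b - a)⁻¹ • (((x - algebraMap K F b) ^ (k + 1))⁻¹
                  - ((x - algebraMap K F b) ^ k)⁻¹ * (x - algebraMap K F a)⁻¹) := by
            rw [Algebra.smul_def, map_inv₀, map_sub]
            field_simp [hne a, hne b, hab']
            ring
          simp only [this]
          exact Submodule.smul_mem _ _ (sub_mem (inv_pow_mem_elemSpan x b (k + 1)) ih)
  · rw [add_mul]; exact add_mem h1 h2
  · rw [smul_mul_assoc]; exact Submodule.smul_mem _ r h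

omit [IsCurveOver K F] [CharZero K] in
/-- Partial fractions: rational functions in `x` lie in `elemSpan x`. -/
theorem mem_elemSpan_of_mem_adjoin {x : F} (hx : ∀ a : K, x ≠ algebraMap K F a) {y : F}
    (hy : y ∈ K⟮x⟯) : y ∈ elemSpan (K := K) x := by
  obtain ⟨p, q, rfl⟩ := (IntermediateField.mem_adjoin_simple_iff K y).mp hy
  have hp : aeval x p ∈ elemSpan (K := K) x := by
    rw [aeval_eq_sum_range]
    exact Submodule.sum_mem _ fun i _ => Submodule.smul_mem _ _ (pow_mem_elemSpan x i)
  have key : ∀ s : Multiset K,
      aeval x p * (s.map fun a => (x - algebraMap K F a)⁻¹).prod ∈ elemSpan (K := K) x := by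
    intro s
    induction s using Multiset.induction_on with
    | empty => simpa using hp
    | cons a s ih =>
      rw [Multiset.map_cons, Multiset.prod_cons, mul_left_comm, mul_comm _ (_ * _)]
      exact mul_inv_mem_elemSpan hx a ih
  rw [(IsAlgClosed.splits q).eq_prod_roots, map_mul, aeval_C, map_multiset_prod, Multiset.map_map,
    div_eq_mul_inv, mul_inv, ← Multiset.prod_map_inv', Multiset.map_map]
  have h := Submodule.smul_mem _ q.leadingCoeff⁻¹ (key q.roots)
  rw [Algebra.smul_def, map_inv₀, mul_left_comm] at h
  simpa [Function.comp_def] using h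

/-- The residues of `h dx`, `h ∈ K(x)`, sum to zero. -/
theorem residueSum_smul_D_of_mem_adjoin {x : F} (hx : ∀ a : K, x ≠ algebraMap K F a) {y : F}
    (hy : y ∈ K⟮x⟯) : residueSum (y • D K F x) = (0 : K) := by
  refine Submodule.span_induction ?_ (by simp) (fun a b _ _ h1 h2 => ?_) (fun r a _ h => ?_)
    (mem_elemSpan_of_mem_adjoin hx hy)
  · rintro _ (⟨i, rfl⟩ | ⟨⟨a, k⟩, rfl⟩)
    · have hi : ((i + 1 : ℕ) : K) ≠ 0 := Nat.cast_ne_zero.mpr (by omega)
      have : x ^ i • D K F x = ((i + 1 : ℕ) : K)⁻¹ • D K F (x ^ (i + 1)) := by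
        rw [Derivation.leibniz_pow, ← Nat.cast_smul_eq_nsmul K, smul_smul, inv_mul_cancel₀ hi,
          one_smul, Nat.add_sub_cancel]
      simp only
      rw [this, map_smul, residueSum_D, smul_zero]
    · have hd : D K F x = D K F (x - algebraMap K F a) := by
        rw [map_sub, Derivation.map_algebraMap, sub_zero]
      simp only
      rw [hd]
      set z := x - algebraMap K F a
      rcases eq_or_ne k 1 with rfl | hk
      · rw [pow_one, residueSum_logDeriv]
      · have hne : ((1 - (k : ℤ) : ℤ) : K) ≠ 0 := Int.cast_ne_zero.mpr (by omega)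
        have : (z ^ k)⁻¹ • D K F z
            = ((1 - (k : ℤ) : ℤ) : K)⁻¹ • D K F (z ^ (1 - (k : ℤ))) := by
          rw [Derivation.leibniz_zpow, ← Int.cast_smul_eq_zsmul K, smul_smul, inv_mul_cancel₀ hne,
            one_smul, show 1 - (k : ℤ) - 1 = -(k : ℤ) by omega, zpow_neg, zpow_natCast]
        rw [this, map_smul, residueSum_D, smul_zero]
  · rw [add_smul, map_add, h1, h2, add_zero]
  · rw [smul_assoc, map_smul, h, smul_zero]

theorem resAt_smul_algEquiv (σ : F ≃ₐ[K] F) (v : Place K F) (g h : F) :
    resAt (σ • v) (σ g • D K F (σ h)) = resAt v (g • D K F h) := by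
  have key := @residue_map_smul_D K F F _ _ _ _ _ σ.toRingEquiv.toRingHom.toAlgebra
    (@IsScalarTower.of_algebraMap_eq K F F _ _ _ _ σ.toRingEquiv.toRingHom.toAlgebra _
      fun r => (σ.commutes r).symm) _ IsCurveOver.finrank_kaehler v
    (coordOf v (IsCurveOver.deg_eq_one_of_isAlgClosed v)) (σ • v)
    (coordOf (σ • v) (IsCurveOver.deg_eq_one_of_isAlgClosed _)) 1
    (fun f => by rw [Nat.cast_one, one_mul]; exact Place.ord_smul σ v f) g h
  rw [Nat.cast_one, one_mul] at key
  exact key

/-- The sum of residues is invariant under automorphisms. -/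
theorem residueSum_smul_algEquiv (σ : F ≃ₐ[K] F) (g h : F) :
    residueSum (σ g • D K F (σ h)) = residueSum (K := K) (g • D K F h) := by
  rw [residueSum_apply, residueSum_apply,
    ← finsum_comp_equiv (MulAction.toPerm σ : Equiv.Perm (Place K F))]
  exact finsum_congr fun v => resAt_smul_algEquiv σ v g h

/-- The residue theorem when `F` is Galois over `K(x)`. -/
theorem residueSum_eq_zero_of_isGalois {x : F} (hx : ∀ a : K, x ≠ algebraMap K F a)
    [FiniteDimensional K⟮x⟯ F] [IsGalois K⟮x⟯ F] (g : F) :
    residueSum (g • D K F x) = (0 : K) := by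
  classical
  have hfix : ∀ σ : F ≃ₐ[K⟮x⟯] F,
      residueSum (σ g • D K F x) = residueSum (K := K) (g • D K F x) := by
    intro σ
    have hσx : σ x = x := σ.commutes (AdjoinSimple.gen K x)
    have := residueSum_smul_algEquiv (σ.restrictScalars K) g x
    rwa [AlgEquiv.restrictScalars_apply, AlgEquiv.restrictScalars_apply, hσx] at this
  have hmem : (∑ σ : F ≃ₐ[K⟮x⟯] F, σ g) ∈ K⟮x⟯ := by
    rw [← trace_eq_sum_automorphisms]
    exact (Algebra.trace K⟮x⟯ F g).2
  have h := residueSum_smul_D_of_mem_adjoin hx hmem
  rw [Finset.sum_smul, map_sum, Finset.sum_congr rfl (fun σ _ => hfix σ), Finset.sum_const,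
    Finset.card_univ, nsmul_eq_mul] at h
  exact (mul_eq_zero.mp h).resolve_left (Nat.cast_ne_zero.mpr Fintype.card_ne_zero)

end Global

section Descent

variable {K F L : Type*} [Field K] [Field F] [Field L] [Algebra K F] [Algebra K L] [Algebra F L]
  [IsScalarTower K F L] [IsAlgClosed K] [CharZero K] [IsCurveOver K F] [IsCurveOver K L]
  [Algebra.IsIntegral F L]

/-- Pullback multiplies the residue by the ramification index. -/
theorem resAt_map (w : Place K L) (ω : Ω[F⁄K]) :
    resAt w (KaehlerDifferential.map K K F L ω)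
      = (w.ramificationIndex F : K) * resAt (w.restrict F) ω :=
  residue_map IsCurveOver.finrank_kaehler _ _ _ (fun f => w.ord_restrict f) ω

/-- Pullback multiplies the sum of residues by the degree. -/
theorem residueSum_map [FundamentalIdentity K F L] (ω : Ω[F⁄K]) :
    residueSum (KaehlerDifferential.map K K F L ω)
      = (Module.finrank F L : K) * residueSum ω := by
  classical
  set T := (support_resAt_finite ω).toFinset
  have hT : ∀ v : Place K F, v ∉ T → resAt v ω = 0 := fun v hv => by
    simpa [T] using hv
  rw [residueSum_apply, residueSum_apply,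
    finsum_eq_sum_of_support_subset _ (s := T.biUnion fun v => v.fiber L) (fun w hw => ?_),
    finsum_eq_sum_of_support_subset _ (s := T) (fun v hv => by
      by_contra hh; exact hv (hT v hh)),
    Finset.sum_biUnion, Finset.mul_sum]
  · refine Finset.sum_congr rfl fun v _ => ?_
    rw [Finset.sum_congr rfl fun w hw => by rw [resAt_map, Place.mem_fiber.mp hw],
      ← Finset.sum_mul]
    congr 1
    have h := FundamentalIdentity.sum_ramificationIndex_mul_deg (K := K) (F := F) (F' := L) v
    simp only [IsCurveOver.deg_eq_one_of_isAlgClosed, Nat.cast_one, mul_one] at h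
    exact_mod_cast congrArg (Int.cast : ℤ → K) h
  · exact fun a _ b _ hab => Finset.disjoint_left.mpr fun w ha hb =>
      hab ((Place.mem_fiber.mp ha).symm.trans (Place.mem_fiber.mp hb))
  · rw [Finset.mem_coe, Finset.mem_biUnion]
    refine ⟨w.restrict F, ?_, w.restrict_mem_fiber⟩
    by_contra hh
    exact hw (by simp only [resAt_map, hT _ hh, mul_zero])

/-- **The residue theorem** (characteristic zero), given an extension Galois over `K(x)`. -/
theorem residueSum_eq_zero_of_galois_extension [FundamentalIdentity K F L] [FiniteDimensional F L]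
    {x : F} (hx : ∀ a : K, x ≠ algebraMap K F a) (hdx : D K F x ≠ 0)
    [FiniteDimensional K⟮algebraMap F L x⟯ L] [IsGalois K⟮algebraMap F L x⟯ L]
    (ω : Ω[F⁄K]) : residueSum ω = (0 : K) := by
  obtain ⟨g, rfl⟩ := exists_eq_smul_of_finrank_kaehler IsCurveOver.finrank_kaehler hdx ω
  have hxL : ∀ a : K, algebraMap F L x ≠ algebraMap K L a := fun a h =>
    hx a ((algebraMap F L).injective (by rw [h, IsScalarTower.algebraMap_apply K F L]))
  have h := residueSum_map (L := L) (g • D K F x)
  rw [map_smul_D, residueSum_eq_zero_of_isGalois hxL (algebraMap F L g)] at h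
  exact (mul_eq_zero.mp h.symm).resolve_left (Nat.cast_ne_zero.mpr Module.finrank_pos.ne')

end Descent

end Fermat.Agent.Differentials
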