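import Fermat.Agent.Differentials.Fundamental
import Fermat.Agent.Differentials.ResidueTheorem
import Mathlib.FieldTheory.Normal.Closure
import Mathlib.FieldTheory.Galois.Basic

/-!
# The residue theorem for a function field of one variable in characteristic zero
-/

noncomputable section


namespace Fermat.Agent.Differentials

open AlgebraicCurve KaehlerDifferential FFPlaces IntermediateField

variable {K F : Type*} [Field K] [Field F] [Algebra K F] [IsAlgClosed K] [CharZero K]

/-- **Residue theorem.** -/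
theorem residueSum_eq_zero [IsCurveOver K F] (hF : FiniteOverGen K F) {t : F}
    (ht : Transcendental K t) (ω : Ω[F⁄K]) : residueSum ω = (0 : K) := by
  have := hF t ht
  have := charZero_adjoin (K := K) t
  let Ω' := AlgebraicClosure F
  let L : IntermediateField K⟮t⟯ Ω' := IntermediateField.normalClosure K⟮t⟯ F Ω'
  have : CharZero F := charZero_of_injective_algebraMap (algebraMap K F).injective
  have : CharZero Ω' := charZero_of_injective_algebraMap (algebraMap F Ω').injective
  have : Algebra.IsAlgebraic K⟮t⟯ F := Algebra.IsAlgebraic.of_finite _ _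
  have : Algebra.IsAlgebraic K⟮t⟯ Ω' := Algebra.IsAlgebraic.trans K⟮t⟯ F Ω'
  have : IsAlgClosure K⟮t⟯ Ω' := ⟨inferInstance, inferInstance⟩
  have : Normal K⟮t⟯ Ω' := IsAlgClosure.normal K⟮t⟯ Ω'
  have : Normal K⟮t⟯ L := normalClosure.normal K⟮t⟯ F Ω'
  have : FiniteDimensional K⟮t⟯ L := normalClosure.is_finiteDimensional K⟮t⟯ F Ω'
  have : Algebra.IsSeparable K⟮t⟯ L := inferInstance
  have : IsGalois K⟮t⟯ L := ⟨⟩
  let : Algebra F L := normalClosure.algebra K⟮t⟯ F Ω'
  have : IsScalarTower K⟮t⟯ F L :=
    IsScalarTower.of_algebraMap_eq fun a => Subtype.ext (IsScalarTower.algebraMap_apply K⟮t⟯ F Ω' a)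
  have : IsScalarTower K F L := IsScalarTower.of_algebraMap_eq fun a => by
    rw [IsScalarTower.algebraMap_apply K K⟮t⟯ F, ← IsScalarTower.algebraMap_apply K⟮t⟯ F L,
      ← IsScalarTower.algebraMap_apply K K⟮t⟯ L]
  have : FiniteDimensional F L := Module.Finite.of_restrictScalars_finite K⟮t⟯ F L
  set t' : L := algebraMap F L t with ht'def
  have ht' : Transcendental K t' :=
    (transcendental_algebraMap_iff (algebraMap F L).injective).mpr ht
  have hmap : K⟮t⟯.map (IsScalarTower.toAlgHom K F L) = K⟮t'⟯ := by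
    rw [adjoin_map, Set.image_singleton]; rfl
  let e : K⟮t⟯ ≃ₐ[K] K⟮t'⟯ :=
    (K⟮t⟯.equivMap (IsScalarTower.toAlgHom K F L)).trans (IntermediateField.equivOfEq hmap)
  have hcompat : (algebraMap K⟮t'⟯ L).comp (e.toRingEquiv : K⟮t⟯ →+* K⟮t'⟯)
      = RingHom.comp ((RingEquiv.refl L : L ≃+* L) : L →+* L) (algebraMap K⟮t⟯ L) := by
    refine RingHom.ext fun y => ?_
    exact (IsScalarTower.algebraMap_apply K⟮t⟯ F L y).symm
  have : IsGalois K⟮t'⟯ L :=
    IsGalois.of_equiv_equiv (f := e.toRingEquiv) (g := RingEquiv.refl L) hcompat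
  have : FiniteDimensional K⟮t'⟯ L :=
    Module.finite_of_finrank_pos (by
      rw [← Algebra.finrank_eq_of_equiv_equiv e.toRingEquiv (RingEquiv.refl L) hcompat]
      exact Module.finrank_pos)
  have hL : FiniteOverGen K L := FiniteOverGen.of_finiteDimensional ht'
  have := isCurveOver hL ht'
  have := fundamentalIdentity (L := L) hF hL
  have hne : ∀ a : K, t ≠ algebraMap K F a := fun a h => ht (h ▸ isAlgebraic_algebraMap a)
  refine residueSum_eq_zero_of_galois_extension (L := L) hne ?_ ω
  intro h
  obtain ⟨v, hv⟩ := exists_place hF ht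
  exact D_ne_zero_of_ord_ne_zero (deg_eq_one' hF v) (a := 0)
    (by rw [map_zero, sub_zero]; omega) h

end Fermat.Agent.Differentials
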