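import Fermat.Agent.Differentials.Hurwitz

/-!
# Residues: behaviour under field maps, independence of the coordinate

In characteristic zero the residue is characterised by `res(exact) = 0`, `res(dt/t) = 1` and
vanishing on regular differentials, so it is multiplied by the ramification index under pullback.
-/

noncomputable section

namespace Fermat.Agent.Differentials

open AlgebraicCurve KaehlerDifferential HahnSeries

section LaurentLemmas

variable {K : Type*} [Field K]

/-- The derivative of a power series is a power series. -/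
theorem deriv'_ofPowerSeries_mem (φ : PowerSeries K) :
    ∃ ψ : PowerSeries K, deriv' (ofPowerSeries ℤ K φ) = ofPowerSeries ℤ K ψ := by
  refine ⟨PowerSeries.mk fun n => ((n + 1 : ℕ) : K) * PowerSeries.coeff (n + 1) φ, ?_⟩
  ext m
  rcases le_or_gt 0 m with hm | hm
  · obtain ⟨k, rfl⟩ := Int.eq_ofNat_of_zero_le hm
    rw [deriv'_ofPowerSeries_coeff, ofPowerSeries_apply_coeff, PowerSeries.coeff_mk]
    push_cast; rfl
  · rw [ofPowerSeries_coeff_neg _ hm, deriv'_coeff]
    rcases eq_or_ne m (-1) with rfl | h1
    · simp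
    · rw [ofPowerSeries_coeff_neg _ (by omega), mul_zero]

/-- A power series has no coefficient in degree `-1`. -/
theorem coeff_neg_one_of_ofPowerSeries (φ : PowerSeries K) :
    (ofPowerSeries ℤ K φ).coeff (-1) = 0 :=
  ofPowerSeries_coeff_neg φ (by norm_num)

/-- The residue of a logarithmic derivative is the order. -/
theorem coeff_neg_one_logDeriv (f : LaurentSeries K) (hf : f ≠ 0) :
    (f⁻¹ * deriv' f).coeff (-1) = (f.order : K) := by
  set φ := f.powerSeriesPart
  have hφ : PowerSeries.constantCoeff φ ≠ 0 := by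
    rw [← PowerSeries.coeff_zero_eq_constantCoeff, LaurentSeries.powerSeriesPart_coeff]
    simpa using coeff_order_eq_zero.not.mpr hf
  have hdec : f = single f.order 1 * ofPowerSeries ℤ K φ :=
    (LaurentSeries.single_order_mul_powerSeriesPart f).symm
  obtain ⟨ψ, hψ⟩ := deriv'_ofPowerSeries_mem φ
  have hinv : (ofPowerSeries ℤ K φ)⁻¹ = ofPowerSeries ℤ K φ⁻¹ := by
    refine inv_eq_of_mul_eq_one_right ?_
    rw [← map_mul, PowerSeries.mul_inv_cancel _ hφ, map_one]
  have hφ0 : ofPowerSeries ℤ K φ ≠ 0 :=
    (map_ne_zero_iff _ ofPowerSeries_injective).mpr fun h => hφ (by rw [h, map_zero])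
  have hs : single f.order (1 : K) ≠ 0 := single_ne_zero one_ne_zero
  generalize f.order = e at hdec hs ⊢
  have hlog : f⁻¹ * deriv' f = single (-1) (e : K) + ofPowerSeries ℤ K (φ⁻¹ * ψ) := by
    rw [hdec, deriv'_mul, hψ, deriv'_single, mul_one, map_mul (ofPowerSeries ℤ K), ← hinv]
    have h1 : single (e - 1) (e : K) = single e (1 : K) * single (-1) (e : K) := by
      rw [single_mul_single, one_mul, sub_eq_add_neg]
    rw [h1]
    field_simp
    ring
  rw [hlog, coeff_add, coeff_single_same, coeff_neg_one_of_ofPowerSeries, add_zero]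

end LaurentLemmas

variable {K E F : Type*} [Field K] [Field E] [Field F] [Algebra K E] [Algebra K F] [Algebra E F]
  [IsScalarTower K E F]

/-- The pullback of `g dh` along a field map. -/
theorem map_smul_D (g h : E) :
    KaehlerDifferential.map K K E F (g • D K E h)
      = algebraMap E F g • D K F (algebraMap E F h) := by
  rw [map_smul, KaehlerDifferential.map_D, algebraMap_smul]

/-- If `w` lies over `v` with index `e`, pullback multiplies residues by `e`. -/
theorem residue_map [CharZero K] (hrank : Module.finrank E Ω[E⁄K] = 1) {v : Place K E}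
    (c : Coord v) {w : Place K F} (d : Coord w) (e : ℕ)
    (he : ∀ f : E, w.ord (algebraMap E F f) = e * v.ord f) (ω : Ω[E⁄K]) :
    d.residue (KaehlerDifferential.map K K E F ω) = (e : K) * c.residue ω := by
  obtain ⟨f, rfl⟩ := exists_eq_smul_of_finrank_kaehler hrank c.dt_ne_zero ω
  set t : E := (c.t : E) with ht
  have ht0 : t ≠ 0 := by simpa [ht] using c.irred.ne_zero
  have hordt : v.ord t = 1 := v.ord_coe_irreducible c.irred
  -- the two linear functionals of `g ↦ g dt`
  set A : E →ₗ[K] K := (d.residue.comp ((KaehlerDifferential.map K K E F).restrictScalars K)).comp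
    (((LinearMap.id (R := E) (M := E)).smulRight (D K E t)).restrictScalars K) with hA
  set B : E →ₗ[K] K := c.residue.comp
    (((LinearMap.id (R := E) (M := E)).smulRight (D K E t)).restrictScalars K) with hB
  suffices A f = (e : K) * B f by exact this
  -- regular functions
  have hmem : ∀ r : v.toValuationSubring, algebraMap E F (r : E) ∈ w.toValuationSubring := by
    intro r
    rcases eq_or_ne (r : E) 0 with h0 | h0
    · rw [h0, map_zero]; exact zero_mem _
    rw [mem_iff_ord_nonneg w ((map_ne_zero (algebraMap E F)).mpr h0), he]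
    exact mul_nonneg (Int.natCast_nonneg e) ((mem_iff_ord_nonneg v h0).mp r.2)
  have hreg : ∀ r : v.toValuationSubring, A (r : E) = 0 ∧ B (r : E) = 0 := by
    intro r
    constructor
    · show (d.diffExp (KaehlerDifferential.map K K E F ((r : E) • D K E t))).coeff (-1) = 0
      rw [map_smul_D, d.diffExp_smul, d.diffExp_D]
      obtain ⟨ψ, hψ⟩ := deriv'_ofPowerSeries_mem (d.taylorHom ⟨_, hmem c.t⟩)
      rw [d.expand_coe ⟨_, hmem r⟩, d.expand_coe ⟨algebraMap E F t, hmem c.t⟩, hψ, ← map_mul]
      exact coeff_neg_one_of_ofPowerSeries _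
    · show (c.diffExp ((r : E) • D K E t)).coeff (-1) = 0
      rw [c.diffExp_smul_dt, c.expand_coe]
      exact coeff_neg_one_of_ofPowerSeries _
  -- powers of `t`
  have hpow : ∀ m : ℤ, A (t ^ m) = (e : K) * B (t ^ m) := by
    intro m
    rcases eq_or_ne m (-1) with rfl | hm
    · have h1 : B (t ^ (-1 : ℤ)) = 1 := by
        show (c.diffExp ((t ^ (-1 : ℤ)) • D K E t)).coeff (-1) = 1
        rw [c.diffExp_smul_dt, map_zpow₀, c.expand_t, ← RatFunc.single_zpow, coeff_single_same]
      have h2 : A (t ^ (-1 : ℤ)) = (e : K) := by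
        show (d.diffExp (KaehlerDifferential.map K K E F ((t ^ (-1 : ℤ)) • D K E t))).coeff (-1) = _
        rw [map_smul_D, d.diffExp_smul, d.diffExp_D, zpow_neg_one, map_inv₀, map_inv₀,
          coeff_neg_one_logDeriv _ ((map_ne_zero _).mpr ((map_ne_zero _).mpr ht0)),
          d.order_expand, he, hordt]
        simp
      rw [h1, h2, mul_one]
    · have hne : ((m + 1 : ℤ) : K) ≠ 0 := Int.cast_ne_zero.mpr (by omega)
      have hex : (t ^ m) • D K E t = ((m + 1 : ℤ) : K)⁻¹ • D K E (t ^ (m + 1)) := by
        rw [Derivation.leibniz_zpow, add_sub_cancel_right, ← Int.cast_smul_eq_zsmul K (m + 1),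
          smul_smul, inv_mul_cancel₀ hne, one_smul]
      show d.residue (KaehlerDifferential.map K K E F ((t ^ m) • D K E t))
        = (e : K) * c.residue ((t ^ m) • D K E t)
      rw [hex, LinearMap.map_smul_of_tower, KaehlerDifferential.map_D, map_smul, map_smul,
        d.residue_D, c.residue_D]
      simp
  -- decompose
  obtain ⟨N, hN⟩ : ∃ N : ℕ, f * t ^ N ∈ v.toValuationSubring := by
    refine ⟨(-v.ord f).toNat, ?_⟩
    rcases eq_or_ne f 0 with rfl | hf
    · rw [zero_mul]; exact zero_mem _
    · rw [mem_iff_ord_nonneg v (mul_ne_zero hf (pow_ne_zero _ ht0)),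
        v.ord_mul hf (pow_ne_zero _ ht0), ← zpow_natCast, v.ord_zpow, hordt]
      omega
  have hdec := congrArg Subtype.val (c.eq_aeval_trunc_add ⟨_, hN⟩ N)
  set p := PowerSeries.trunc N (c.taylor ⟨_, hN⟩)
  set r := c.shift^[N] ⟨_, hN⟩
  have hf : f = (∑ i ∈ p.support, p.coeff i • t ^ ((i : ℤ) - N)) + (r : E) := by
    refine mul_right_cancel₀ (pow_ne_zero N ht0) ?_
    simp only [AddMemClass.coe_add, MulMemClass.coe_mul, SubmonoidClass.coe_pow] at hdec
    rw [hdec, add_mul, mul_comm (t ^ N), Finset.sum_mul]
    congr 1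
    rw [Polynomial.aeval_def, Polynomial.eval₂_eq_sum, Polynomial.sum_def,
      AddSubmonoidClass.coe_finsetSum]
    refine Finset.sum_congr rfl fun i _ => ?_
    rw [smul_mul_assoc, zpow_sub₀ ht0, zpow_natCast, zpow_natCast,
      div_mul_cancel₀ _ (pow_ne_zero _ ht0), Algebra.smul_def,
      MulMemClass.coe_mul, SubmonoidClass.coe_pow, Place.coe_algebraMap]
  rw [hf, map_add, map_add, (hreg r).1, (hreg r).2, add_zero, add_zero, map_sum, map_sum,
    Finset.mul_sum]
  refine Finset.sum_congr rfl fun i _ => ?_
  rw [map_smul, map_smul, hpow, smul_eq_mul, smul_eq_mul]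
  ring

/-- `residue_map` for a differential `g dh`. -/
theorem residue_map_smul_D [CharZero K] (hrank : Module.finrank E Ω[E⁄K] = 1) {v : Place K E}
    (c : Coord v) {w : Place K F} (d : Coord w) (e : ℕ)
    (he : ∀ f : E, w.ord (algebraMap E F f) = e * v.ord f) (g h : E) :
    d.residue (algebraMap E F g • D K F (algebraMap E F h))
      = (e : K) * c.residue (g • D K E h) := by
  rw [← map_smul_D]; exact residue_map hrank c d e he _

end Fermat.Agent.Differentials
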